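import Fermat.Agent.S15.C.Places
import Fermat.Agent.S15.T.Defs
import Fermat.Agent.S36.Norm.Levels

/-!
# S15 / C / Hecke : `T_l (∞) = (l + 1) (∞)`, `T_l (0) = (l + 1) (0)` on divisors of `X₀(p)`, `l ≠ p` prime   (C2)

`T_l = α_* β^*` with `α, β : FF p → FF (p l)`.  A place `W` of `FF (p l)` with a pole of `j` is determined "up to type" by the four negative
integers `a = W(j), b = W(j_p), c = W(j_l), d = W(j_{pl})`: restricting `W` along the four degeneracy maps
`α, β : FF p → FF (p l)` and `dg 1, dg p : FF l → FF (p l)` gives  `b = p a ∨ a = p b`, `d = p c ∨ c = p d`, `c = l a ∨ a = l c`, `d = l b ∨ b = l d`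
(`ratio`, which rests on `eq_of_ord_jj_neg`: only two cusps at prime level).  Since `p ≠ l` this forces  `b = p a ↔ d = p c`, i.e.
`W|α = ∞ ↔ W|β = ∞`.
-/

set_option autoImplicit false

open AlgebraicCurve ModularCurve

namespace Fermat.Agent.S15.C

open Fermat.Agent.ES Fermat.Agent.SS Fermat.Agent.S36.Norm

noncomputable section

section ratio

variable (l : ℕ) [Fact l.Prime] [NeZero l]

omit [Fact l.Prime] [NeZero l] in
theorem CH1_ramIdx_pos {E : Type} [Field E] [Algebra Qb E] (φ : FF l →ₐ[Qb] E)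
    (hφ : φ.toRingHom.IsIntegral) (W : Place Qb E) :
    (0 : ℤ) < (Place.ramificationIndexAlong φ W : ℤ) := by
  let _ := algebraAlong φ
  have := isScalarTower_along φ
  have := isIntegral_along φ hφ
  exact_mod_cast W.ramificationIndex_pos (F := FF l)

theorem CH1_pInf {E : Type} [Field E] [Algebra Qb E] (φ : FF l →ₐ[Qb] E)
    (hφ : φ.toRingHom.IsIntegral) (W : Place Qb E) (h : W.restrictAlong φ hφ = pInf l) :
    W.ord (φ (jj l)) < 0 ∧ W.ord (φ (jp l)) = (l : ℤ) * W.ord (φ (jj l)) := by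
  have he := CH1_ramIdx_pos l φ hφ W
  rw [Place.ord_restrictAlong φ hφ, Place.ord_restrictAlong φ hφ, h, ord_pInf_jj, ord_pInf_jp]
  constructor
  · linarith
  · ring

theorem CH1_pZero {E : Type} [Field E] [Algebra Qb E] (φ : FF l →ₐ[Qb] E)
    (hφ : φ.toRingHom.IsIntegral) (W : Place Qb E) (h : W.restrictAlong φ hφ = pZero l) :
    W.ord (φ (jp l)) < 0 ∧ W.ord (φ (jj l)) = (l : ℤ) * W.ord (φ (jp l)) := by
  have he := CH1_ramIdx_pos l φ hφ W
  rw [Place.ord_restrictAlong φ hφ, Place.ord_restrictAlong φ hφ, h, ord_pZero_jj, ord_pZero_jp]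
  constructor
  · linarith
  · ring

/-- TASK S15/C-H1.  `Place.ord_restrictAlong φ hφ W f : W.ord (φ f) = ramificationIndexAlong φ W * (W.restrictAlong φ hφ).ord f`; the ramification index is a
natural number, so the restricted place has a pole of `j` or of `j_l`; `eq_of_ord_jj_neg`, `eq_of_ord_jp_neg`; then `ord_pInf_jj`, `ord_pInf_jp`,
`ord_pZero_jj`, `ord_pZero_jp`. -/
theorem ratio {E : Type} [Field E] [Algebra Qb E] (φ : FF l →ₐ[Qb] E) (hφ : φ.toRingHom.IsIntegral)
    (W : Place Qb E) (h : W.ord (φ (jj l)) < 0 ∨ W.ord (φ (jp l)) < 0) :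
    (W.restrictAlong φ hφ = pInf l ∧ W.ord (φ (jj l)) < 0 ∧
        W.ord (φ (jp l)) = (l : ℤ) * W.ord (φ (jj l))) ∨
      (W.restrictAlong φ hφ = pZero l ∧ W.ord (φ (jp l)) < 0 ∧
        W.ord (φ (jj l)) = (l : ℤ) * W.ord (φ (jp l))) := by
  have he := CH1_ramIdx_pos l φ hφ W
  have hP : W.restrictAlong φ hφ = pInf l ∨ W.restrictAlong φ hφ = pZero l := by
    rcases h with h | h
    · rw [Place.ord_restrictAlong φ hφ] at h
      exact eq_of_ord_jj_neg l _ (by
        by_contra hcon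
        rw [not_lt] at hcon
        exact absurd (mul_nonneg he.le hcon) (not_le.2 h))
    · rw [Place.ord_restrictAlong φ hφ] at h
      exact eq_of_ord_jp_neg l _ (by
        by_contra hcon
        rw [not_lt] at hcon
        exact absurd (mul_nonneg he.le hcon) (not_le.2 h))
  rcases hP with hP | hP
  · exact Or.inl ⟨hP, CH1_pInf l φ hφ W hP⟩
  · exact Or.inr ⟨hP, CH1_pZero l φ hφ W hP⟩

/-- TASK S15/C-H1.  `Place.ord_restrictAlong`, `Place.ramificationIndex_pos` (unfold `Place.ramificationIndexAlong` with `letI := algebraAlong φ` etc. as in the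
Prelude file `Def_AlgebraicCurve_Correspondence`), `ord_pInf_jj`. -/
theorem ord_neg_of_restrict_pInf {E : Type} [Field E] [Algebra Qb E] (φ : FF l →ₐ[Qb] E)
    (hφ : φ.toRingHom.IsIntegral) (W : Place Qb E) (h : W.restrictAlong φ hφ = pInf l) :
    W.ord (φ (jj l)) < 0 ∧ W.ord (φ (jp l)) = (l : ℤ) * W.ord (φ (jj l)) := by
  exact CH1_pInf l φ hφ W h

/-- TASK S15/C-H1. -/
theorem ord_neg_of_restrict_pZero {E : Type} [Field E] [Algebra Qb E] (φ : FF l →ₐ[Qb] E)
    (hφ : φ.toRingHom.IsIntegral) (W : Place Qb E) (h : W.restrictAlong φ hφ = pZero l) :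
    W.ord (φ (jp l)) < 0 ∧ W.ord (φ (jj l)) = (l : ℤ) * W.ord (φ (jp l)) := by
  exact CH1_pZero l φ hφ W h

end ratio

section level

variable (p l : ℕ) [Fact p.Prime] [NeZero p] [Fact l.Prime] [NeZero l]

/-- `j` at level `p l`. -/
abbrev J1 : FF (p * l) := S24.jF (p * l) 1 (one_dvd _)

/-- `j(q^p)` at level `p l`. -/
abbrev Jp : FF (p * l) := S24.jF (p * l) p (dvd_mul_right p l)

/-- `j(q^l)` at level `p l`. -/
abbrev Jl : FF (p * l) := S24.jF (p * l) l (dvd_mul_left l p)

/-- `j(q^(p l))` at level `p l`. -/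
abbrev Jpl : FF (p * l) := S24.jF (p * l) (p * l) dvd_rfl

/-- TASK S15/C-H2.  All eight: `Subtype.ext`, `coe_heckeAlphaBar`, `coe_heckeBetaBar`, `S36.Norm.dg_jF`/`Vq_jSer`, `coe_dg_one`, and `ES.jSer_congr`
(`ES/B/H1/AtkinLehner.lean`) or `Crux.GM.Fricke.jF_congr` for `l * 1 = l`, `l * p = p * l`, `p * 1 = p`. -/
theorem alpha_jj : heckeAlphaBar Qb p l (jj p) = J1 p l := by
  exact Subtype.ext (coe_heckeAlphaBar p l (jj p))

/-- TASK S15/C-H2. -/
theorem alpha_jp : heckeAlphaBar Qb p l (jp p) = Jp p l := by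
  exact Subtype.ext (coe_heckeAlphaBar p l (jp p))

/-- TASK S15/C-H2. -/
theorem beta_jj : heckeBetaBar Qb p l (jj p) = Jl p l := by
  exact Subtype.ext ((coe_heckeBetaBar p l (jj p)).trans
    ((Vq_jSer l 1).trans (AtkinLehner.jSer_congr (mul_one l))))

/-- TASK S15/C-H2. -/
theorem beta_jp : heckeBetaBar Qb p l (jp p) = Jpl p l := by
  exact Subtype.ext ((coe_heckeBetaBar p l (jp p)).trans
    ((Vq_jSer l p).trans (AtkinLehner.jSer_congr (mul_comm l p))))

/-- the inclusion `FF l → FF (p l)`. -/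
def dgA : FF l →ₐ[Qb] FF (p * l) := dg l (p * l) 1 (by rw [one_mul]; exact dvd_mul_left l p)

/-- `q ↦ q^p`, `FF l → FF (p l)`. -/
def dgB : FF l →ₐ[Qb] FF (p * l) := dg l (p * l) p dvd_rfl

/-- TASK S15/C-H2. -/
theorem dgA_jj : dgA p l (jj l) = J1 p l := by
  exact Subtype.ext (coe_dg_one l (p * l) _ (jj l))

/-- TASK S15/C-H2. -/
theorem dgA_jp : dgA p l (jp l) = Jl p l := by
  exact Subtype.ext (coe_dg_one l (p * l) _ (jp l))

/-- TASK S15/C-H2. -/
theorem dgB_jj : dgB p l (jj l) = Jp p l := by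
  exact Subtype.ext ((Vq_jSer p 1).trans (AtkinLehner.jSer_congr (mul_one p)))

/-- TASK S15/C-H2. -/
theorem dgB_jp : dgB p l (jp l) = Jpl p l := by
  exact Subtype.ext (Vq_jSer p l)

/-- TASK S15/C-H2.  `S36.Norm.finHom_dg` + `ES.H1Degree.isIntegral_of_finiteAlong` (`FinHom φ.toRingHom` unfolds to `FiniteAlong`). -/
theorem dgA_integral : (dgA p l).toRingHom.IsIntegral := by
  exact H1Degree.isIntegral_of_finiteAlong (dgA p l) (finHom_dg l (p * l) 1 _)

/-- TASK S15/C-H2. -/
theorem dgB_integral : (dgB p l).toRingHom.IsIntegral := by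
  exact H1Degree.isIntegral_of_finiteAlong (dgB p l) (finHom_dg l (p * l) p _)

/-- TASK S15/C-H3 (pure arithmetic; `a b c d` are the orders of `j, j_p, j_l, j_{pl}`).  Four cases; e.g. `c = l a`, `d = l b`:
`l b = d = p c = p l a = p² l b`, so `p² = 1`; `a = l c`, `d = l b`: `l² b = l d = p l c = p a = p² b`, so `l = p`. -/
theorem arith_key {P L a b c d : ℤ} (hP : 1 < P) (hL : 1 < L) (hPL : P ≠ L) (ha : a < 0) (hb : b < 0)
    (hc : c < 0) (hd : d < 0) (h1 : d = P * c) (h2 : a = P * b) (h3 : c = L * a ∨ a = L * c)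
    (h4 : d = L * b ∨ b = L * d) : False := by
  have hP2 : 0 < P * P - 1 := by nlinarith
  have hL0 : 0 < L := by linarith
  rcases h3 with h3 | h3 <;> rcases h4 with h4 | h4
  · have h5 : L * b = P * (L * (P * b)) := by rw [← h4, h1, h3, h2]
    have h : b * (L * (P * P - 1)) = 0 := by linear_combination (-1 : ℤ) * h5
    exact (mul_neg_of_neg_of_pos hb (mul_pos hL0 hP2)).ne h
  · have h5 : d = P * (L * (P * (L * d))) := by
      calc d = P * c := h1
        _ = P * (L * a) := by rw [h3]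
        _ = P * (L * (P * b)) := by rw [h2]
        _ = P * (L * (P * (L * d))) := by rw [← h4]
    have h : d * (P * P * (L * L) - 1) = 0 := by linear_combination (-1 : ℤ) * h5
    have hpos : 0 < P * P * (L * L) - 1 := by nlinarith [mul_pos hL0 hL0]
    exact (mul_neg_of_neg_of_pos hd hpos).ne h
  · have h5 : L * (L * b) = P * (P * b) := by
      calc L * (L * b) = L * d := by rw [← h4]
        _ = L * (P * c) := by rw [h1]
        _ = P * (L * c) := by ring
        _ = P * a := by rw [← h3]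
        _ = P * (P * b) := by rw [h2]
    have h : b * ((L - P) * (L + P)) = 0 := by linear_combination h5
    rcases mul_eq_zero.1 h with h | h
    · exact hb.ne h
    · rcases mul_eq_zero.1 h with h | h
      · exact hPL (by linarith)
      · linarith
  · have h5 : L * c = P * (L * (P * c)) := by
      calc L * c = a := h3.symm
        _ = P * b := h2
        _ = P * (L * d) := by rw [← h4]
        _ = P * (L * (P * c)) := by rw [h1]
    have h : c * (L * (P * P - 1)) = 0 := by linear_combination (-1 : ℤ) * h5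
    exact (mul_neg_of_neg_of_pos hc (mul_pos hL0 hP2)).ne h

/-- TASK S15/C-H4.  Put `a b c d := W.ord (J1), (Jp), (Jl), (Jpl)`.  `ord_neg_of_restrict_pInf p β` gives `c < 0`, `d = p c` (`beta_jj`, `beta_jp`).
`ratio l (dgA p l)` (with `dgA_jj`, `dgA_jp`) gives `a < 0`, `c < 0` and `c = l a ∨ a = l c`.  `ratio p α` gives the claim or `W|α = pZero`, `b < 0`, `a = p b`;
in the second case `ratio l (dgB p l)` gives `d = l b ∨ b = l d`, and `arith_key` concludes. -/
theorem restrict_alpha_of_beta_pInf (hne : l ≠ p) (W : Place Qb (FF (p * l)))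
    (h : W.restrictAlong (heckeBetaBar Qb p l) (heckeBetaBarIntegral p l) = pInf p) :
    W.restrictAlong (heckeAlphaBar Qb p l) (heckeAlphaBarIntegral p l) = pInf p := by
  have hp1 : (1 : ℤ) < (p : ℤ) := by exact_mod_cast (Fact.out : p.Prime).one_lt
  have hl1 : (1 : ℤ) < (l : ℤ) := by exact_mod_cast (Fact.out : l.Prime).one_lt
  have hpl : (p : ℤ) ≠ (l : ℤ) := by
    intro h0
    exact hne (by exact_mod_cast h0.symm)
  obtain ⟨hc, hd⟩ :=
    ord_neg_of_restrict_pInf p (heckeBetaBar Qb p l) (heckeBetaBarIntegral p l) W h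
  rw [beta_jj] at hc hd
  rw [beta_jp] at hd
  have hA := ratio l (dgA p l) (dgA_integral p l) W (Or.inr (by rw [dgA_jp]; exact hc))
  rw [dgA_jj, dgA_jp] at hA
  have ha : W.ord (J1 p l) < 0 := by
    rcases hA with ⟨-, h1, -⟩ | ⟨-, h1, h2⟩
    · exact h1
    · rw [h2]
      exact mul_neg_of_pos_of_neg (by linarith) h1
  have h3 : W.ord (Jl p l) = (l : ℤ) * W.ord (J1 p l) ∨
      W.ord (J1 p l) = (l : ℤ) * W.ord (Jl p l) := by
    rcases hA with ⟨-, -, h2⟩ | ⟨-, -, h2⟩
    · exact Or.inl h2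
    · exact Or.inr h2
  rcases ratio p (heckeAlphaBar Qb p l) (heckeAlphaBarIntegral p l) W
    (Or.inl (by rw [alpha_jj]; exact ha)) with ⟨h1, -⟩ | ⟨-, hb, hab⟩
  · exact h1
  · exfalso
    rw [alpha_jp] at hb hab
    rw [alpha_jj] at hab
    have hB := ratio l (dgB p l) (dgB_integral p l) W (Or.inl (by rw [dgB_jj]; exact hb))
    rw [dgB_jj, dgB_jp] at hB
    have h4 : W.ord (Jpl p l) = (l : ℤ) * W.ord (Jp p l) ∨
        W.ord (Jp p l) = (l : ℤ) * W.ord (Jpl p l) := by
      rcases hB with ⟨-, -, h2⟩ | ⟨-, -, h2⟩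
      · exact Or.inl h2
      · exact Or.inr h2
    have hdneg : W.ord (Jpl p l) < 0 := by
      rw [hd]
      exact mul_neg_of_pos_of_neg (by linarith) hc
    exact arith_key hp1 hl1 hpl ha hb hc hdneg hd hab h3 h4

/-- TASK S15/C-H4.  Symmetric: now `c = p d` and, in the bad case, `b = p a`; apply `arith_key` to `(a b c d) := (b, a, d, c)`. -/
theorem restrict_alpha_of_beta_pZero (hne : l ≠ p) (W : Place Qb (FF (p * l)))
    (h : W.restrictAlong (heckeBetaBar Qb p l) (heckeBetaBarIntegral p l) = pZero p) :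
    W.restrictAlong (heckeAlphaBar Qb p l) (heckeAlphaBarIntegral p l) = pZero p := by
  have hp1 : (1 : ℤ) < (p : ℤ) := by exact_mod_cast (Fact.out : p.Prime).one_lt
  have hl1 : (1 : ℤ) < (l : ℤ) := by exact_mod_cast (Fact.out : l.Prime).one_lt
  have hpl : (p : ℤ) ≠ (l : ℤ) := by
    intro h0
    exact hne (by exact_mod_cast h0.symm)
  obtain ⟨hd, hc⟩ :=
    ord_neg_of_restrict_pZero p (heckeBetaBar Qb p l) (heckeBetaBarIntegral p l) W h
  rw [beta_jp] at hd hc
  rw [beta_jj] at hc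
  have hcneg : W.ord (Jl p l) < 0 := by
    rw [hc]
    exact mul_neg_of_pos_of_neg (by linarith) hd
  have hA := ratio l (dgA p l) (dgA_integral p l) W (Or.inr (by rw [dgA_jp]; exact hcneg))
  rw [dgA_jj, dgA_jp] at hA
  have ha : W.ord (J1 p l) < 0 := by
    rcases hA with ⟨-, h1, -⟩ | ⟨-, h1, h2⟩
    · exact h1
    · rw [h2]
      exact mul_neg_of_pos_of_neg (by linarith) h1
  have h3 : W.ord (Jl p l) = (l : ℤ) * W.ord (J1 p l) ∨
      W.ord (J1 p l) = (l : ℤ) * W.ord (Jl p l) := by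
    rcases hA with ⟨-, -, h2⟩ | ⟨-, -, h2⟩
    · exact Or.inl h2
    · exact Or.inr h2
  rcases ratio p (heckeAlphaBar Qb p l) (heckeAlphaBarIntegral p l) W
    (Or.inl (by rw [alpha_jj]; exact ha)) with ⟨-, -, hab⟩ | ⟨h1, -⟩
  · exfalso
    rw [alpha_jp, alpha_jj] at hab
    have hb : W.ord (Jp p l) < 0 := by
      rw [hab]
      exact mul_neg_of_pos_of_neg (by linarith) ha
    have hB := ratio l (dgB p l) (dgB_integral p l) W (Or.inl (by rw [dgB_jj]; exact hb))
    rw [dgB_jj, dgB_jp] at hB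
    have h4 : W.ord (Jpl p l) = (l : ℤ) * W.ord (Jp p l) ∨
        W.ord (Jp p l) = (l : ℤ) * W.ord (Jpl p l) := by
      rcases hB with ⟨-, -, h2⟩ | ⟨-, -, h2⟩
      · exact Or.inl h2
      · exact Or.inr h2
    exact arith_key hp1 hl1 hpl hb ha hd hcneg hc hab h4 h3
  · exact h1

/-- TASK S15/C-H5.  `obtain ⟨w, hw⟩ := SS.exists_isAL p l _ _`; `w` is bijective (`SS.IsAL.invol`), `β = w ∘ α` (`hw.alpha`); so
`finrankAlong β = finrankAlong α` (`Algebra.finrank_eq_of_equiv_equiv (RingEquiv.refl _) w'` for the two algebra structures `algebraAlong α`, `algebraAlong β`,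
cf. `ES.H1Degree.finite_and_finrank`) `= l + 1` (`ES.finrankAlong_heckeAlpha`). -/
theorem finrankAlong_heckeBeta (hne : l ≠ p) : finrankAlong Qb (heckeBetaBar Qb p l) = l + 1 := by
  have hl : l.Prime := Fact.out
  have hp : p.Prime := Fact.out
  have hlp : ¬ l ∣ p := fun h => hne ((Nat.prime_dvd_prime_iff_eq hl hp).mp h)
  obtain ⟨w, hw⟩ := SS.exists_isAL p l hl hlp
  have hinv : ∀ x, w (w x) = x := hw.invol hl
  let w' : FF (p * l) ≃+* FF (p * l) :=
    RingEquiv.ofBijective (w : FF (p * l) →+* FF (p * l))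
      ⟨w.injective, fun x => ⟨w x, hinv x⟩⟩
  rw [← ES.finrankAlong_heckeAlpha p l hl hlp]
  symm
  unfold finrankAlong
  exact @Algebra.finrank_eq_of_equiv_equiv _ _ _ _ (algebraAlong (heckeAlphaBar Qb p l)) _ _ _ _
    (algebraAlong (heckeBetaBar Qb p l)) (RingEquiv.refl _) w' (by
      refine RingHom.ext fun f => ?_
      exact (hw.alpha f).symm)

end level

section general

variable {K F F' : Type*} [Field K] [Field F] [Field F'] [Algebra K F] [Algebra K F']
  [HasPrincipalDivisors K F']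

/-- TASK S15/C-H6.  `Divisor.correspondence_apply`, `Divisor.pullbackAlong_single`, `map_sum`, `Divisor.pushforwardAlong_single`, `Place.mem_fiberAlong` + `h`:
the result is `∑ W ∈ fiber, single P (..) = single P n` (`Finsupp.single_finset_sum`-type lemma); then compare degrees:
`Divisor.degree_correspondence φ ψ hφ hψ hFI`, `Divisor.degree_single`, `hP`. -/
theorem correspondence_single_of_fiber (φ ψ : F →ₐ[K] F') (hφ : φ.toRingHom.IsIntegral)
    (hψ : ψ.toRingHom.IsIntegral) (hFI : FundamentalIdentityAlong K φ hφ) (P : Place K F)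
    (hP : P.deg = 1)
    (h : ∀ W : Place K F', W.restrictAlong φ hφ = P → W.restrictAlong ψ hψ = P) :
    Divisor.correspondence φ ψ hφ hψ (Finsupp.single P 1) =
      Finsupp.single P (finrankAlong K φ : ℤ) := by
  have h1 : ∃ n : ℤ, Divisor.correspondence φ ψ hφ hψ (Finsupp.single P 1) = Finsupp.single P n := by
    rw [Divisor.correspondence_apply, Divisor.pullbackAlong_single, map_sum]
    refine ⟨∑ W ∈ Place.fiberAlong φ hφ P,
      (1 * (W.ramificationIndexAlong φ : ℤ)) * W.inertiaDegAlong ψ hψ, ?_⟩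
    rw [Finsupp.single_finsetSum]
    refine Finset.sum_congr rfl fun W hW => ?_
    rw [Divisor.pushforwardAlong_single, h W (Place.mem_fiberAlong.mp hW)]
  obtain ⟨n, hn⟩ := h1
  have h2 := Divisor.degree_correspondence φ ψ hφ hψ hFI (Finsupp.single P 1)
  rw [hn, Divisor.degree_single, Divisor.degree_single, hP] at h2
  rw [hn]
  congr 1
  simpa using h2

end general

section final

variable (p : ℕ) [Fact p.Prime] [NeZero p]

/-- TASK S15/C-H7.  Unfold `T.TD`; `haveI : Fact l.Prime := ⟨hl⟩`; `correspondence_single_of_fiber` with `S37.fundamentalIdentityAlong_heckeBeta p l`, `deg_place`,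
`restrict_alpha_of_beta_pInf`, `finrankAlong_heckeBeta`; `push_cast`. -/
theorem TD_pInf (l : ℕ) [NeZero l] (hl : l.Prime) (hne : l ≠ p) :
    T.TD p l (Finsupp.single (pInf p) 1) = Finsupp.single (pInf p) ((l : ℤ) + 1) := by
  have : Fact l.Prime := ⟨hl⟩
  have : NeZero (p * l) := ⟨Nat.mul_ne_zero (NeZero.ne p) (NeZero.ne l)⟩
  have hPD := S37.hasPrincipalDivisors_FF (p * l)
  have h := correspondence_single_of_fiber (heckeBetaBar Qb p l) (heckeAlphaBar Qb p l)
    (heckeBetaBarIntegral p l) (heckeAlphaBarIntegral p l)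
    (S37.fundamentalIdentityAlong_heckeBeta p l) (pInf p) (deg_place p _)
    (restrict_alpha_of_beta_pInf p l hne)
  rw [finrankAlong_heckeBeta p l hne] at h
  push_cast at h
  exact h

/-- TASK S15/C-H7. -/
theorem TD_pZero (l : ℕ) [NeZero l] (hl : l.Prime) (hne : l ≠ p) :
    T.TD p l (Finsupp.single (pZero p) 1) = Finsupp.single (pZero p) ((l : ℤ) + 1) := by
  have : Fact l.Prime := ⟨hl⟩
  have : NeZero (p * l) := ⟨Nat.mul_ne_zero (NeZero.ne p) (NeZero.ne l)⟩
  have hPD := S37.hasPrincipalDivisors_FF (p * l)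
  have h := correspondence_single_of_fiber (heckeBetaBar Qb p l) (heckeAlphaBar Qb p l)
    (heckeBetaBarIntegral p l) (heckeAlphaBarIntegral p l)
    (S37.fundamentalIdentityAlong_heckeBeta p l) (pZero p) (deg_place p _)
    (restrict_alpha_of_beta_pZero p l hne)
  rw [finrankAlong_heckeBeta p l hne] at h
  push_cast at h
  exact h

end final

end

end Fermat.Agent.S15.C
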