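import Fermat.Agent.Crux.GM.Haupt
import Fermat.Agent.Crux.GM.Trunc
import Fermat.Agent.ES.B.Red

/-!
# S15 / C / Red : in characteristic `e`, `h̃^m` is not a constant times an `e^s`-th power unless `e ∣ m`    (C5')

`k` a field of characteristic `e`.  `h̃ = q^(1-p) G₀^24`, `G₀ = ∏ (1-q^n)/(1-q^(pn)) = 1 - q + …`.  Write `24 = e^a b`, `e ∤ b`; if `e^s ∣ p - 1`, `e^s ∤ 24`
then `a < s`, and  `h̃^m = q^((1-p)m) ((G₀^b)^m)^(e^a)`  has the coefficient `(-(m b))^(e^a)` at the index `(1-p) m + e^a`, which is not divisible by `e^s`;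
but an `e^s`-th power is a series in `q^(e^s)`.
-/

set_option autoImplicit false

open ModularCurve HahnSeries

namespace Fermat.Agent.S15.C

open Fermat.Agent.Crux.GM (castS hH)

noncomputable section

variable {k : Type*} [Field k]

/-! ### Frobenius -/

/-- TASK S15/C-R1.  Induction on `a` from `ES.pow_char_eq e x : x ^ e = Vq k e (coeffMap (frobenius k e) x)` (`Vq k e = qExpand k e`); `pow_succ`, `pow_mul`,
`qExpand_qExpand`, `coeffMap_qExpand` (`Thm_ModularCurve_coeffMap_qExpand` / `ES`), `coeffMap_coeffMap`, `iterateFrobenius_succ`-type lemmas.  (Alternatively prove only the two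
corollaries below directly by induction.) -/
theorem pow_char_pow_eq (e a : ℕ) [Fact e.Prime] [NeZero e] [CharP k e] (x : LaurentSeries k) :
    x ^ (e ^ a) = qExpand k (e ^ a) (coeffMap (iterateFrobenius k e a) x) := by
  induction a with
  | zero =>
    have h1 : iterateFrobenius k e 0 = RingHom.id k := by
      ext y
      rw [iterateFrobenius_def, pow_zero, pow_one, RingHom.id_apply]
    rw [qExpand_congr (pow_zero e), qExpand_one_apply, coeffMap_congr h1, coeffMap_id, pow_zero,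
      pow_one]
  | succ a ih =>
    have h1 : (frobenius k e).comp (iterateFrobenius k e a) = iterateFrobenius k e (a + 1) := by
      ext y
      rw [RingHom.comp_apply, iterateFrobenius_def, iterateFrobenius_def, frobenius_def, ← pow_mul,
        pow_succ]
    have h2 : x ^ e ^ (a + 1) = (x ^ e ^ a) ^ e := by rw [pow_succ, pow_mul]
    rw [h2, ih, ES.pow_char_eq e, coeffMap_qExpand, qExpand_qExpand,
      coeffMap_coeffMap, coeffMap_congr h1]
    exact qExpand_congr (by rw [pow_succ, mul_comm]) _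

/-- TASK S15/C-R1.  `pow_char_pow_eq`, `qExpand_coeff_of_not_dvd`. -/
theorem coeff_pow_char_pow (e s : ℕ) [Fact e.Prime] [NeZero e] [CharP k e] (x : LaurentSeries k) (n : ℤ)
    (hn : ¬ ((e : ℤ) ^ s) ∣ n) : (x ^ (e ^ s)).coeff n = 0 := by
  rw [pow_char_pow_eq]
  refine qExpand_coeff_of_not_dvd _ _ ?_
  rwa [Nat.cast_pow]

/-- TASK S15/C-R1.  `pow_char_pow_eq`, `qExpand_coeff_mul` (index `e^a * 1`), `coeffMap_coeff`, `iterateFrobenius_def`. -/
theorem coeff_pow_char_pow_self (e a : ℕ) [Fact e.Prime] [NeZero e] [CharP k e] (x : LaurentSeries k) :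
    (x ^ (e ^ a)).coeff ((e : ℤ) ^ a) = (x.coeff 1) ^ (e ^ a) := by
  have h1 : ((e : ℤ) ^ a) = ((e ^ a : ℕ) : ℤ) * 1 := by rw [mul_one, Nat.cast_pow]
  rw [pow_char_pow_eq, h1, qExpand_coeff_mul, coeffMap_coeff, iterateFrobenius_def]

/-! ### series of the form `1 - z q + O(q²)` -/

/-- `x = 1 - z q + O(q²)`. -/
def OM (z : k) (x : LaurentSeries k) : Prop :=
  ∃ f : PowerSeries k, x = HahnSeries.ofPowerSeries ℤ k f ∧ PowerSeries.constantCoeff f = 1 ∧
    PowerSeries.coeff 1 f = -z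

/-- TASK S15/C-R2. -/
theorem OM.coeff_one {z : k} {x : LaurentSeries k} (h : OM z x) : x.coeff 1 = -z := by
  obtain ⟨f, rfl, -, h1⟩ := h
  have := HahnSeries.ofPowerSeries_apply_coeff (Γ := ℤ) f 1
  rw [Nat.cast_one] at this
  rw [this, h1]

/-- TASK S15/C-R2. -/
theorem OM.ne_zero {z : k} {x : LaurentSeries k} (h : OM z x) : x ≠ 0 := by
  obtain ⟨f, rfl, h0, -⟩ := h
  intro hx
  have := HahnSeries.ofPowerSeries_apply_coeff (Γ := ℤ) f 0
  rw [hx, HahnSeries.coeff_zero, PowerSeries.coeff_zero_eq_constantCoeff_apply, h0] at this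
  exact zero_ne_one this

/-- TASK S15/C-R2. -/
theorem OM.one : OM (0 : k) 1 := by
  refine ⟨1, (map_one _).symm, map_one _, ?_⟩
  rw [PowerSeries.coeff_one, if_neg one_ne_zero, neg_zero]

theorem CR2_coeff_one_mul (f g : PowerSeries k) :
    PowerSeries.coeff 1 (f * g) = PowerSeries.constantCoeff f * PowerSeries.coeff 1 g +
      PowerSeries.coeff 1 f * PowerSeries.constantCoeff g := by
  rw [PowerSeries.coeff_mul]
  simp [Finset.Nat.antidiagonal_succ]

/-- TASK S15/C-R2.  (`map_mul`, `PowerSeries.coeff_mul`, antidiagonal of `1`.) -/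
theorem OM.mul {z z' : k} {x x' : LaurentSeries k} (h : OM z x) (h' : OM z' x') :
    OM (z + z') (x * x') := by
  obtain ⟨f, rfl, h0, h1⟩ := h
  obtain ⟨f', rfl, h0', h1'⟩ := h'
  refine ⟨f * f', (map_mul _ _ _).symm, by rw [map_mul, h0, h0', one_mul], ?_⟩
  rw [CR2_coeff_one_mul, h0, h0', h1, h1']
  ring

/-- TASK S15/C-R2.  (`g := f.invOfUnit 1`, `PowerSeries.mul_invOfUnit`; `x⁻¹ = ofPowerSeries g` by `eq_inv_of_mul_eq_one_right`; the coefficient of `X` in `f g = 1`.) -/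
theorem OM.inv {z : k} {x : LaurentSeries k} (h : OM z x) : OM (-z) x⁻¹ := by
  obtain ⟨f, rfl, h0, h1⟩ := h
  have hf0 : PowerSeries.constantCoeff f ≠ 0 := by
    rw [h0]
    exact one_ne_zero
  have hmul : f * f⁻¹ = 1 := PowerSeries.mul_inv_cancel f hf0
  have hc0 : PowerSeries.constantCoeff f⁻¹ = 1 := by
    rw [PowerSeries.constantCoeff_inv, h0, inv_one]
  refine ⟨f⁻¹, ?_, hc0, ?_⟩
  · symm
    apply eq_inv_of_mul_eq_one_right
    rw [← map_mul, hmul, map_one]
  · have h2 := congrArg (PowerSeries.coeff 1) hmul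
    rw [CR2_coeff_one_mul, PowerSeries.coeff_one, if_neg one_ne_zero, h0, hc0, h1] at h2
    linear_combination h2

/-- TASK S15/C-R2. -/
theorem OM.pow {z : k} {x : LaurentSeries k} (h : OM z x) (n : ℕ) : OM ((n : k) * z) (x ^ n) := by
  induction n with
  | zero =>
    rw [Nat.cast_zero, zero_mul, pow_zero]
    exact OM.one
  | succ n ih =>
    have := ih.mul h
    rw [pow_succ]
    convert this using 1
    push_cast
    ring

/-- TASK S15/C-R2. -/
theorem OM.zpow {z : k} {x : LaurentSeries k} (h : OM z x) (m : ℤ) : OM ((m : k) * z) (x ^ m) := by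
  cases m with
  | ofNat n =>
    rw [Int.ofNat_eq_natCast, zpow_natCast, Int.cast_natCast]
    exact h.pow n
  | negSucc n =>
    rw [zpow_negSucc, Int.cast_negSucc, neg_mul]
    exact (h.pow (n + 1)).inv

/-- TASK S15/C-R2.  (`ES.Vq_ofPowerSeries`, `PowerSeries.coeff_expand`; `n ∤ 1`.) -/
theorem OM.vq {z : k} {x : LaurentSeries k} (h : OM z x) (n : ℕ) [NeZero n] (hn : 2 ≤ n) :
    OM 0 (qExpand k n x) := by
  obtain ⟨f, rfl, h0, -⟩ := h
  refine ⟨PowerSeries.expand n (NeZero.ne n) f, Fermat.Agent.ES.Vq_ofPowerSeries n f, ?_, ?_⟩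
  · have := PowerSeries.coeff_expand_mul (p := n) (hp := NeZero.ne n) (φ := f) 0
    rw [mul_zero, PowerSeries.coeff_zero_eq_constantCoeff_apply,
      PowerSeries.coeff_zero_eq_constantCoeff_apply] at this
    rw [this, h0]
  · rw [PowerSeries.coeff_expand_of_not_dvd, neg_zero]
    intro hd
    have := Nat.le_of_dvd one_pos hd
    omega

/-- TASK S15/C-R2. (`single N 1 = (single 1 1) ^ N`: `HahnSeries.single_zpow`-type lemma if available; otherwise induction on `m` with `HahnSeries.single_mul_single`,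
and `inv` by `eq_inv_of_mul_eq_one_left`.) -/
theorem single_one_zpow (N m : ℤ) :
    (HahnSeries.single N (1 : k) : LaurentSeries k) ^ m = HahnSeries.single (N * m) 1 := by
  rw [RatFunc.single_zpow N, RatFunc.single_zpow (N * m), zpow_mul]

/-! ### the core -/

/-- TASK S15/C-R3.  `(single N 1 * G^(e^a))^m = single (N m) 1 * (G^m)^(e^a)` (`mul_zpow`, `single_one_zpow`, `zpow_natCast`, `zpow_comm`-type lemmas).  Coefficient at `N m + e^a`:
right side `c * ((G^m)^(e^a)).coeff (e^a) = c * (-(m b))^(e^a)` (`HahnSeries.coeff_single_mul`/`coeff_single_mul_add`, `HahnSeries.C_mul`-coefficient, `coeff_pow_char_pow_self`,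
`(hG.zpow m).coeff_one`); left side `0` by `coeff_pow_char_pow` (`e^s ∣ N m`, `e^s ∤ e^a` since `a < s`).  So `(m b : k) = 0`, `CharP.intCast_eq_zero_iff k e`,
`Int.Prime.dvd_mul'`/`(Nat.prime_iff_prime_int.mp _).dvd_or_dvd`. -/
theorem dvd_of_pow_eq_aux (e s a : ℕ) [Fact e.Prime] [NeZero e] [CharP k e] (ha : a < s)
    (G : LaurentSeries k) (b : ℤ) (hG : OM (b : k) G) (hb : ¬ (e : ℤ) ∣ b) (N : ℤ)
    (hN : ((e : ℤ) ^ s) ∣ N) (r : LaurentSeries k) (c : k) (hc : c ≠ 0) (m : ℤ)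
    (h : r ^ (e ^ s) = HahnSeries.C c * (HahnSeries.single N (1 : k) * G ^ (e ^ a)) ^ m) :
    (e : ℤ) ∣ m := by
  have hep : e.Prime := Fact.out
  have h1 : (HahnSeries.single N (1 : k) * G ^ (e ^ a)) ^ m
      = HahnSeries.single (N * m) (1 : k) * (G ^ m) ^ (e ^ a) := by
    rw [mul_zpow, single_one_zpow, ← zpow_natCast, ← zpow_natCast, ← zpow_mul, ← zpow_mul, mul_comm m]
  rw [h1] at h
  have h2 := congrArg (fun x : LaurentSeries k => x.coeff (N * m + (e : ℤ) ^ a)) h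
  have hnd : ¬ ((e : ℤ) ^ s) ∣ (N * m + (e : ℤ) ^ a) := by
    intro hd
    have h3 : ((e : ℤ) ^ s) ∣ (e : ℤ) ^ a := (dvd_add_right (hN.mul_right m)).mp hd
    have h4 : e ^ s ∣ e ^ a := by exact_mod_cast h3
    have := (Nat.pow_dvd_pow_iff_le_right hep.one_lt).mp h4
    omega
  rw [coeff_pow_char_pow e s r _ hnd] at h2
  have h5 : (HahnSeries.C c * (HahnSeries.single (N * m) (1 : k) * (G ^ m) ^ (e ^ a))).coeff
      (N * m + (e : ℤ) ^ a) = c * ((G ^ m) ^ (e ^ a)).coeff ((e : ℤ) ^ a) := by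
    rw [HahnSeries.C_apply, HahnSeries.coeff_single_mul, sub_zero, HahnSeries.coeff_single_mul,
      add_sub_cancel_left, one_mul]
  rw [h5, coeff_pow_char_pow_self, (hG.zpow m).coeff_one] at h2
  have h6 : ((m : k) * (b : k)) = 0 := by
    have := (mul_eq_zero.mp h2.symm).resolve_left hc
    have := pow_eq_zero_iff (pow_ne_zero a hep.ne_zero) |>.mp this
    simpa using this
  have h7 : ((m * b : ℤ) : k) = 0 := by push_cast; exact h6
  rw [CharP.intCast_eq_zero_iff k e] at h7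
  exact ((Nat.prime_iff_prime_int.mp hep).dvd_or_dvd h7).resolve_right hb

/-! ### the modular unit -/

theorem CR4_coeff_one_etaProd : PowerSeries.coeff 1 etaProd = -1 := by
  rw [Fermat.Agent.Crux.GM.Trunc.coeff_etaProd 2 1 (by norm_num)]
  simp only [Finset.prod_range_succ, Finset.prod_range_zero, one_mul, zero_add, pow_one]
  have : (1 - (PowerSeries.X : PowerSeries ℤ)) * (1 - PowerSeries.X ^ (1 + 1))
      = 1 - PowerSeries.X - PowerSeries.X ^ 2 + PowerSeries.X ^ 3 := by ring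
  rw [this]
  simp [PowerSeries.coeff_X_pow, PowerSeries.coeff_one, PowerSeries.coeff_X]

/-- TASK S15/C-R4.  `constantCoeff_etaProd`; `Crux.GM.coeff_etaProd 2 1 _ : coeff 1 etaProd = coeff 1 (∏ b ∈ range 2, (1 - X^(b+1)))`, which is `-1`
(`Finset.prod_range_succ`, expand, `PowerSeries.coeff_X_pow`...); `PowerSeries.coeff_map`. -/
theorem OM_etaProd : OM (1 : k)
    (HahnSeries.ofPowerSeries ℤ k (etaProd.map (Int.castRingHom k))) := by
  refine ⟨etaProd.map (Int.castRingHom k), rfl, ?_, ?_⟩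
  · rw [← PowerSeries.coeff_zero_eq_constantCoeff_apply, PowerSeries.coeff_map,
      PowerSeries.coeff_zero_eq_constantCoeff_apply, constantCoeff_etaProd]
    simp
  · rw [PowerSeries.coeff_map, CR4_coeff_one_etaProd]
    simp

/-- TASK S15/C-R4.  `G := E * (qExpand k p E)⁻¹`, `E := ofPowerSeries (etaProd.map _)`: `OM (1 + -0) G` by `OM_etaProd`, `OM.vq`, `OM.inv`, `OM.mul`.
`hH p = deltaC ℤ * V ℤ p (deltaInvC ℤ)`; `castS k` of it is `deltaC k * V k p (deltaInvC k)` (`S28.Build.coeffMap_deltaC`, `coeffMap_V`, `coeffMap_deltaInvC`, as in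
`Crux.GM.uInf_mul_castS_hH`); `deltaC k = single 1 1 * E^24` (`S28.deltaC`, `dedekindEtaUnit = etaProd^24`, `map_pow`); `deltaInvC k = (deltaC k)⁻¹`
(`S28.Build.deltaC_mul_deltaInvC`); `qExpand_single`; `single 1 1 * (single p 1)⁻¹ = single (1-p) 1`. -/
theorem exists_G (k : Type*) [Field k] (p : ℕ) [NeZero p] (hp : 2 ≤ p) :
    ∃ G : LaurentSeries k, OM 1 G ∧
      castS k (hH p) = HahnSeries.single (1 - (p : ℤ)) (1 : k) * G ^ 24 := by
  set E : LaurentSeries k := HahnSeries.ofPowerSeries ℤ k (etaProd.map (Int.castRingHom k)) with hE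
  have hOE : OM (1 : k) E := OM_etaProd
  have hOV : OM (0 : k) (qExpand k p E) := hOE.vq p hp
  refine ⟨E * (qExpand k p E)⁻¹, ?_, ?_⟩
  · have := hOE.mul hOV.inv
    simpa using this
  · have hD : S28.deltaC k = HahnSeries.single (1 : ℤ) (1 : k) * E ^ 24 := by
      rw [S28.deltaC, dedekindEtaUnit, map_pow, map_pow]
    have h1 := S28.Build.deltaC_mul_deltaInvC k
    have hDne : S28.deltaC k ≠ 0 := left_ne_zero_of_mul_eq_one h1
    have hinv : S28.deltaInvC k = (S28.deltaC k)⁻¹ := eq_inv_of_mul_eq_one_right h1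
    rw [hH, castS, map_mul, S28.Build.coeffMap_deltaC, S28.Build.coeffMap_V, S28.Build.coeffMap_deltaInvC, hinv,
      map_inv₀, hD, map_mul, map_pow, qExpand_single, mul_one]
    have hs : (HahnSeries.single (1 - (p : ℤ)) (1 : k) : LaurentSeries k)
        = HahnSeries.single (1 : ℤ) (1 : k) * (HahnSeries.single (p : ℤ) (1 : k))⁻¹ := by
      have hne : (HahnSeries.single (p : ℤ) (1 : k) : LaurentSeries k) ≠ 0 :=
        HahnSeries.single_ne_zero one_ne_zero
      rw [eq_mul_inv_iff_mul_eq₀ hne, HahnSeries.single_mul_single]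
      simp
    rw [hs, mul_pow, inv_pow, mul_inv]
    ring

/-- TASK S15/C-R5.  With `k = ℚ`: `(castS ℚ (hH p)).coeff n = ((hH p).coeff n : ℚ)` (`coeffMap_coeff`), `exists_G ℚ p hp`, `(hG.pow 24).coeff_one`,
`HahnSeries.coeff_single_mul`-type lemma (`2 - p = (1 - p) + 1`); `Int.cast_injective`. -/
theorem hH_coeff_next (p : ℕ) [NeZero p] (hp : 2 ≤ p) : (hH p).coeff (2 - (p : ℤ)) = -24 := by
  obtain ⟨G, hG, h⟩ := exists_G ℚ p hp
  have h1 := congrArg (fun x : LaurentSeries ℚ => x.coeff (2 - (p : ℤ))) h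
  have h2 : (castS ℚ (hH p)).coeff (2 - (p : ℤ)) = (((hH p).coeff (2 - (p : ℤ)) : ℤ) : ℚ) := by
    rw [castS, coeffMap_coeff]; rfl
  have h3 : (HahnSeries.single (1 - (p : ℤ)) (1 : ℚ) * G ^ 24).coeff (2 - (p : ℤ)) = -24 := by
    rw [HahnSeries.coeff_single_mul, one_mul]
    have : (2 - (p : ℤ)) - (1 - (p : ℤ)) = 1 := by ring
    rw [this, (hG.pow 24).coeff_one]
    norm_num
  have h4 : (((hH p).coeff (2 - (p : ℤ)) : ℤ) : ℚ) = ((-24 : ℤ) : ℚ) := by
    rw [← h2]
    refine h1.trans (h3.trans ?_)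
    norm_num
  exact_mod_cast h4

/-- TASK S15/C-R5.  `Crux.GM.haupt_order_hH p : order = 1 - p ∧ leadingCoeff = 1`; `HahnSeries.leadingCoeff_eq`/`coeff_order`. -/
theorem hH_coeff_lead (p : ℕ) [NeZero p] : (hH p).coeff (1 - (p : ℤ)) = 1 := by
  obtain ⟨h1, h2⟩ := Fermat.Agent.Crux.GM.haupt_order_hH p
  have h3 : (1 - (p : ℤ)) = (hH p).order := by rw [h1]; ring
  rw [h3, ← HahnSeries.leadingCoeff_eq, h2]

/-- TASK S15/C-R5.  **(C5'), general form** (all primes `e`, also `2` and `3`).  Let `a := 24.factorization e` (or `padicValNat e 24`), `24 = e^a * b`, `e ∤ b`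
(`Nat.ordProj_mul_ordCompl_eq_self`, `Nat.not_dvd_ordCompl`); `a < s` because `e^s ∤ 24` (`pow_dvd_pow`).  `p - 1 = e^s * n₁`, `u^(p-1) = (u^n₁)^(e^s)`.
`exists_G k p hp`: `castS k (hH p) = single (1-p) 1 * (G^b)^(e^a)`, `OM (b * 1) (G^b)`.  `dvd_of_pow_eq_aux` with `N = 1 - p`. -/
theorem dvd_of_pow_eq (e s p : ℕ) [Fact e.Prime] [NeZero e] [CharP k e] [NeZero p] (hp : 2 ≤ p)
    (hs : e ^ s ∣ p - 1) (h24 : ¬ e ^ s ∣ 24) (u : LaurentSeries k) (c : k) (hc : c ≠ 0) (m : ℤ)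
    (h : u ^ (p - 1) = HahnSeries.C c * (castS k (hH p)) ^ m) : (e : ℤ) ∣ m := by
  have hep : e.Prime := Fact.out
  set a := (24 : ℕ).factorization e with ha
  set b := 24 / e ^ a with hb
  have hab : e ^ a * b = 24 := Nat.ordProj_mul_ordCompl_eq_self 24 e
  have hbe : ¬ e ∣ b := Nat.not_dvd_ordCompl hep (by norm_num)
  have has : a < s := by
    by_contra hcon
    push Not at hcon
    exact h24 ((pow_dvd_pow e hcon).trans ⟨b, hab.symm⟩)
  obtain ⟨n₁, hn₁⟩ := hs
  obtain ⟨G, hG, hGe⟩ := exists_G k p hp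
  have hOb : OM (((b : ℤ) : k)) (G ^ b) := by
    have := hG.pow b
    simpa using this
  refine dvd_of_pow_eq_aux e s a has (G ^ b) (b : ℤ) hOb (by exact_mod_cast hbe) (1 - (p : ℤ)) ?_
    (u ^ n₁) c hc m ?_
  · have : (1 - (p : ℤ)) = -((p - 1 : ℕ) : ℤ) := by
      rw [Nat.cast_sub (by omega)]; push_cast; ring
    rw [this, hn₁]
    push_cast
    exact (dvd_mul_right _ _).neg_right
  · rw [← pow_mul, mul_comm n₁, ← hn₁, h, hGe, ← pow_mul, mul_comm b, hab]

/-- TASK S15/C-R6.  **(C5') for an abstract integral series** `H = q^(1-p) (1 - 24 q + …)` (the fields `H_order`, `H_lead`, `H_next` of `T.Cusp`), `e ≥ 5`.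
`x := coeffMap (Int.castRingHom k) H`; `G := single (p-1) 1 * x` is `OM 24 G` (it is `ofPowerSeries` of `PowerSeries.mk fun n => (H.coeff (n + 1 - p) : k)`; coefficients below the
order vanish: `HahnSeries.coeff_eq_zero_of_lt_order`), `x = single (1-p) 1 * G^(e^0)`.  `dvd_of_pow_eq_aux e 1 0` with `b = 24` (`e ∤ 24` as `e ≥ 5` is prime: `e ∣ 24 = 2^3 * 3`
forces `e = 2` or `3`), `r = u^((p-1)/e)`. -/
theorem dvd_of_pow_eq_abstract (e p : ℕ) [Fact e.Prime] [NeZero e] [CharP k e] (he5 : 5 ≤ e)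
    (hp : 1 ≤ p) (he : e ∣ p - 1) (H : LaurentSeries ℤ) (hord : H.order = 1 - (p : ℤ))
    (hlead : H.coeff (1 - (p : ℤ)) = 1) (hnext : H.coeff (2 - (p : ℤ)) = -24)
    (u : LaurentSeries k) (c : k) (hc : c ≠ 0) (m : ℤ)
    (h : u ^ (p - 1) = HahnSeries.C c * (coeffMap (Int.castRingHom k) H) ^ m) : (e : ℤ) ∣ m := by
  have hep : e.Prime := Fact.out
  set x : LaurentSeries k := coeffMap (Int.castRingHom k) H with hx
  set G : LaurentSeries k := HahnSeries.single ((p : ℤ) - 1) (1 : k) * x with hG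
  have hGcoeff : ∀ n : ℤ, G.coeff n = ((H.coeff (n + 1 - p) : ℤ) : k) := by
    intro n
    have h1 := HahnSeries.coeff_single_mul_add (r := (1 : k)) (x := x) (a := n + 1 - p)
      (b := (p : ℤ) - 1)
    rw [show n + 1 - (p : ℤ) + ((p : ℤ) - 1) = n by ring, one_mul] at h1
    rw [hG, h1, hx, coeffMap_coeff]
    rfl
  have hOM : OM (((24 : ℤ) : k)) G := by
    refine ⟨PowerSeries.mk fun n => ((H.coeff ((n : ℤ) + 1 - p) : ℤ) : k), ?_, ?_, ?_⟩
    · ext n
      rw [hGcoeff]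
      have h2 := PowerSeries.coeff_coe
        (PowerSeries.mk fun n : ℕ => ((H.coeff ((n : ℤ) + 1 - p) : ℤ) : k)) n
      rw [show (HahnSeries.ofPowerSeries ℤ k
        (PowerSeries.mk fun n : ℕ => ((H.coeff ((n : ℤ) + 1 - p) : ℤ) : k))).coeff n = _ from h2]
      split_ifs with hn
      · rw [HahnSeries.coeff_eq_zero_of_lt_order (by rw [hord]; omega), Int.cast_zero]
      · rw [PowerSeries.coeff_mk]
        have : ((n.natAbs : ℕ) : ℤ) = n := Int.natAbs_of_nonneg (by omega)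
        rw [this]
    · rw [← PowerSeries.coeff_zero_eq_constantCoeff_apply, PowerSeries.coeff_mk]
      rw [show (((0 : ℕ) : ℤ) + 1 - (p : ℤ)) = 1 - p by simp, hlead, Int.cast_one]
    · rw [PowerSeries.coeff_mk]
      rw [show (((1 : ℕ) : ℤ) + 1 - (p : ℤ)) = 2 - p by push_cast; ring, hnext]
      push_cast
      rfl
  have hxG : x = HahnSeries.single (1 - (p : ℤ)) (1 : k) * G ^ (e ^ 0) := by
    rw [pow_zero, pow_one, hG, ← mul_assoc, HahnSeries.single_mul_single,
      show (1 - (p : ℤ)) + ((p : ℤ) - 1) = 0 by ring, one_mul]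
    exact (one_mul x).symm
  have hb : ¬ (e : ℤ) ∣ 24 := by
    intro hd
    have hd' : e ∣ 24 := by exact_mod_cast hd
    have h24 : (24 : ℕ) = 2 ^ 3 * 3 := by norm_num
    rw [h24] at hd'
    rcases (Nat.Prime.dvd_mul hep).1 hd' with h2 | h3
    · have := (Nat.prime_dvd_prime_iff_eq hep Nat.prime_two).1 (hep.dvd_of_dvd_pow h2)
      omega
    · have := (Nat.prime_dvd_prime_iff_eq hep Nat.prime_three).1 h3
      omega
  obtain ⟨n₁, hn₁⟩ := he
  have hN : ((e : ℤ) ^ 1) ∣ (1 - (p : ℤ)) := by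
    rw [pow_one]
    refine ⟨-(n₁ : ℤ), ?_⟩
    have : ((p - 1 : ℕ) : ℤ) = (e : ℤ) * n₁ := by exact_mod_cast hn₁
    rw [Nat.cast_sub hp] at this
    push_cast at this
    linarith
  refine dvd_of_pow_eq_aux e 1 0 Nat.one_pos G 24 hOM hb (1 - (p : ℤ)) hN (u ^ n₁) c hc m ?_
  rw [pow_one, ← pow_mul, mul_comm n₁ e, ← hn₁, h, ← hxG]

end

end Fermat.Agent.S15.C
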