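import Fermat.Agent.S15.C.Unit
import Fermat.Agent.S15.C.Red
import Fermat.Agent.SS.GM2.Desc.Renorm
import Fermat.Agent.S36.Base.KeyInputs
import Fermat.Agent.S26.FF.Nonspecial
import Fermat.Agent.S17.G.FromS27

/-!
# S15 / C / Order : `m c0 = 0 ⟹ e ∣ m` for every prime `e` with `e^s ∣ p - 1`, `e^s ∤ 24`; `c0 ≠ 0` for `p ∉ {2,3,5,7,13}`    (C5)

No genus, no Riemann-Roch: if `m c0 = 0` then `div g = m ((0) - (∞))`, so `g^(p-1) = c h^m`; reduce modulo a valuation ring `A ∣ e` and use `dvd_of_pow_eq`.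
-/

set_option autoImplicit false

open AlgebraicCurve ModularCurve

namespace Fermat.Agent.S15.C

open Fermat.Agent.ES Fermat.Agent.SS
open Fermat.Agent.Crux.GM (castS hH)

noncomputable section

variable (p : ℕ) [Fact p.Prime] [NeZero p]

/-- TASK S15/C-O1.  `f := g^(p-1) * (h^m)⁻¹` has `ord = 0` at every place (`Place.ord_mul`, `ord_pow`, `ord_zpow`/`ord_inv`-type lemmas, `ord_hU_eq`, `hg`), so it is a constant:
`S26.mem_range_algebraMap_of_forall_ord_nonneg` (`S26/FF/Nonspecial.lean`) with the instance `S26.FF1 Qb (FF p) := S17.G.ff1_of_isFF _ (S17.FL Qb p)`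
(used like this in `S37/DivA.lean`, `exists_eq_nsmul_add_div`). -/
theorem exists_const_of_ord (m : ℤ) (g : FF p) (hg0 : g ≠ 0)
    (hg : ∀ P : Place Qb (FF p), P.ord g = m * cuspD p P) :
    ∃ c : Qb, c ≠ 0 ∧ g ^ (p - 1) = algebraMap Qb (FF p) c * hU p ^ m := by
  have : S26.FF1 Qb (FF p) := S17.G.ff1_of_isFF _ (S17.FL Qb p)
  have hh0 := hU_ne_zero p
  have hz0 : hU p ^ m ≠ 0 := zpow_ne_zero _ hh0
  have hp0 : g ^ (p - 1) ≠ 0 := pow_ne_zero _ hg0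
  have hp1 : ((p - 1 : ℕ) : ℤ) = (p : ℤ) - 1 := by
    have := (Fact.out : p.Prime).one_le
    push_cast [Nat.cast_sub this]
    ring
  have hord : ∀ P : Place Qb (FF p), P.ord (g ^ (p - 1) * (hU p ^ m)⁻¹) = 0 := by
    intro P
    rw [P.ord_mul hp0 (inv_ne_zero hz0), P.ord_inv, P.ord_zpow, S24.FF.ord_pow, hg P, ord_hU_eq,
      hp1]
    ring
  obtain ⟨c, hc⟩ := S26.mem_range_algebraMap_of_forall_ord_nonneg (Ω := Qb)
    (f := g ^ (p - 1) * (hU p ^ m)⁻¹) (fun v => (hord v).ge)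
  refine ⟨c, ?_, ?_⟩
  · rintro rfl
    rw [map_zero] at hc
    exact mul_ne_zero hp0 (inv_ne_zero hz0) hc.symm
  · rw [hc, mul_assoc, inv_mul_cancel₀ hz0, mul_one]

/-- TASK S15/C-O2.  `RedTo.pow`, `RedTo.inv` (cases `m = n`, `m = -(n+1)`: `Int.induction_on`/`obtain ⟨n, rfl | rfl⟩ := m.eq_nat_or_neg`). -/
theorem redTo_zpow {A : ValuationSubring Qb} {x : LaurentSeries Qb} {r : LaurentSeries (kA A)}
    (h : RedTo A x r) (hr : r ≠ 0) (m : ℤ) : RedTo A (x ^ m) (r ^ m) := by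
  obtain ⟨n, rfl | rfl⟩ := m.eq_nat_or_neg
  · rw [zpow_natCast, zpow_natCast]
    exact h.pow n
  · rw [zpow_neg, zpow_neg, zpow_natCast, zpow_natCast]
    exact (h.pow n).inv (pow_ne_zero _ hr)

/-- TASK S15/C-O2.  `exists_G (kA A) p _` : `castS k (hH p) = single _ 1 * G^24` with `G ≠ 0` (`OM.ne_zero`). -/
theorem castS_hH_ne_zero (k : Type*) [Field k] : castS k (hH p) ≠ 0 := by
  obtain ⟨G, hG, hGe⟩ := exists_G k p (Fact.out : p.Prime).two_le
  rw [hGe]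
  refine mul_ne_zero ?_ (pow_ne_zero _ hG.ne_zero)
  exact HahnSeries.single_ne_zero one_ne_zero

/-- TASK S15/C-O3.  `SS.exists_redTo A g hg0` gives `c₁ ≠ 0`, `r ≠ 0`, `RedTo A (cst c₁ * g) r`.  `(cst c₁ * g)^(p-1) = cst (c₁^(p-1) c) * (castS Qb (hH p))^m` (coerce `hc` to `LaurentSeries Qb`; `coe_hU`;
`cst d = algebraMap Qb _ d`).  With `H̃ := castS (kA A) (hH p)`: `SS.GM2.Renorm.redTo_castS`, `redTo_zpow` (exponent `-m`), `RedTo.pow`, `RedTo.mul` give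
`RedTo A (cst d) (r^(p-1) * H̃^(-m))`, `d = c₁^(p-1) c`.  `RedTo.const` : this reduction is `cstk A (resA A a)`; it is nonzero as `r`, `H̃ ≠ 0`.  `cstk A x = HahnSeries.C x`
(`algebraMap_laurentSeries_eq_single`). -/
theorem exists_red_pow_eq (A : ValuationSubring Qb) (m : ℤ) (g : FF p) (hg0 : g ≠ 0) (c : Qb) (hc0 : c ≠ 0)
    (hc : g ^ (p - 1) = algebraMap Qb (FF p) c * hU p ^ m) :
    ∃ (r : LaurentSeries (kA A)) (c' : kA A), c' ≠ 0 ∧
      r ^ (p - 1) = HahnSeries.C c' * (castS (kA A) (hH p)) ^ m := by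
  obtain ⟨c₁, r, hc₁, hr, hred⟩ := exists_redTo A g hg0
  set Ht : LaurentSeries (kA A) := castS (kA A) (hH p) with hHt
  have hHt0 : Ht ≠ 0 := castS_hH_ne_zero p (kA A)
  have hH0 : castS Qb (hH p) ≠ 0 := castS_hH_ne_zero p Qb
  have hcoe : (g : LaurentSeries Qb) ^ (p - 1) = cst c * (castS Qb (hH p)) ^ m := by
    have h0 := congrArg ((modularFunctionFieldBar p).val : FF p → LaurentSeries Qb) hc
    rw [map_pow, map_mul, map_zpow₀] at h0
    exact h0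
  have h1 : RedTo A ((cst c₁ * (g : LaurentSeries Qb)) ^ (p - 1)) (r ^ (p - 1)) := hred.pow _
  have h2 : RedTo A ((castS Qb (hH p)) ^ (-m)) (Ht ^ (-m)) :=
    redTo_zpow (Fermat.Agent.SS.GM2.Renorm.redTo_castS (hH p)) hHt0 (-m)
  have h3 := h1.mul h2
  have h4 : (cst c₁ * (g : LaurentSeries Qb)) ^ (p - 1) * (castS Qb (hH p)) ^ (-m)
      = cst (c₁ ^ (p - 1) * c) := by
    have hz : (castS Qb (hH p)) ^ m ≠ 0 := zpow_ne_zero _ hH0
    have hcm : cst (c₁ ^ (p - 1) * c) = cst c₁ ^ (p - 1) * cst c := by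
      rw [cst, map_mul, map_pow]
    rw [mul_pow, hcoe, zpow_neg, hcm, ← mul_assoc, mul_assoc, mul_inv_cancel₀ hz, mul_one]
  rw [h4] at h3
  obtain ⟨a, ha, hra⟩ := h3.const
  refine ⟨r, resA A a, ?_, ?_⟩
  · intro h0
    rw [h0, cstk, map_zero] at hra
    exact (mul_ne_zero (pow_ne_zero _ hr) (zpow_ne_zero _ hHt0)) hra
  · have h5 : r ^ (p - 1) = cstk A (resA A a) * Ht ^ m := by
      rw [← hra, zpow_neg, mul_assoc, inv_mul_cancel₀ (zpow_ne_zero _ hHt0), mul_one]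
    rw [h5, cstk, algebraMap_laurentSeries_eq_single]
    rfl

/-- TASK S15/C-O4.  **(C5).**  `zsmul_c0_eq_zero_iff`, `exists_const_of_ord`, `S36.Base`'s `exists_liesOverPrime` (`S36/Base/KeyInputs.lean`; `Qbar = Qb`), `ES.charP_kA`,
`exists_red_pow_eq`, `dvd_of_pow_eq` (`2 ≤ p`: `Nat.Prime.two_le`). -/
theorem dvd_of_zsmul_c0 (e s : ℕ) (he : e.Prime) (hs : e ^ s ∣ p - 1) (h24 : ¬ e ^ s ∣ 24) (m : ℤ)
    (hm : m • c0 p = 0) : (e : ℤ) ∣ m := by
  obtain ⟨g, hg0, hg⟩ := (zsmul_c0_eq_zero_iff p m).1 hm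
  obtain ⟨c, hc0, hc⟩ := exists_const_of_ord p m g hg0 hg
  obtain ⟨A, hA⟩ := S36.Base.exists_liesOverPrime he
  have : CharP (kA A) e := ES.charP_kA he hA
  have : Fact e.Prime := ⟨he⟩
  have : NeZero e := ⟨he.ne_zero⟩
  obtain ⟨r, c', hc'0, hr⟩ := exists_red_pow_eq p A m g hg0 c hc0 hc
  exact dvd_of_pow_eq e s p (Fact.out : p.Prime).two_le hs h24 r c' hc'0 m hr

/-- TASK S15/C-O4.  `p - 1 ∤ 24`: otherwise `p - 1 ∈ Nat.divisors 24 = {1,2,3,4,6,8,12,24}` (`decide`), `p ∈ {2,3,4,5,7,9,13,25}`, and `4, 9, 25` are not prime (`norm_num`).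
`Nat.dvd_iff_prime_pow_dvd_dvd`. -/
theorem exists_prime_pow (hp' : p ∉ ({2, 3, 5, 7, 13} : Finset ℕ)) :
    ∃ e s : ℕ, e.Prime ∧ e ^ s ∣ p - 1 ∧ ¬ e ^ s ∣ 24 := by
  have hpp : p.Prime := Fact.out
  have hnd : ¬ (p - 1) ∣ 24 := by
    intro hd
    have h1 : p - 1 ∈ Nat.divisors 24 := Nat.mem_divisors.2 ⟨hd, by norm_num⟩
    have h2 : Nat.divisors 24 = {1, 2, 3, 4, 6, 8, 12, 24} := by decide
    rw [h2] at h1
    simp only [Finset.mem_insert, Finset.mem_singleton] at h1 hp'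
    have h3 := hpp.one_le
    rcases h1 with h | h | h | h | h | h | h | h
    · exact hp' (Or.inl (by omega))
    · exact hp' (Or.inr (Or.inl (by omega)))
    · have : p = 4 := by omega
      rw [this] at hpp
      exact absurd hpp (by norm_num)
    · exact hp' (Or.inr (Or.inr (Or.inl (by omega))))
    · exact hp' (Or.inr (Or.inr (Or.inr (Or.inl (by omega)))))
    · have : p = 9 := by omega
      rw [this] at hpp
      exact absurd hpp (by norm_num)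
    · exact hp' (Or.inr (Or.inr (Or.inr (Or.inr (by omega)))))
    · have : p = 25 := by omega
      rw [this] at hpp
      exact absurd hpp (by norm_num)
  rw [Nat.dvd_iff_prime_pow_dvd_dvd] at hnd
  push Not at hnd
  obtain ⟨e, s, he, h1, h2⟩ := hnd
  exact ⟨e, s, he, h1, h2⟩

/-- TASK S15/C-O4.  `exists_prime_pow`, `dvd_of_zsmul_c0` with `m = 1`. -/
theorem c0_ne_zero (hp' : p ∉ ({2, 3, 5, 7, 13} : Finset ℕ)) : c0 p ≠ 0 := by
  intro h0
  obtain ⟨e, s, he, h1, h2⟩ := exists_prime_pow p hp'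
  have h3 := dvd_of_zsmul_c0 p e s he h1 h2 1 (by rw [one_zsmul, h0])
  have h4 : e ∣ 1 := by exact_mod_cast h3
  exact he.one_lt.ne' (Nat.dvd_one.1 h4)

end

end Fermat.Agent.S15.C
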