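import Fermat.Agent.S15.C.Unit
import Fermat.Agent.S15.C.Hecke
import Fermat.Agent.S15.C.Order

/-!
# S15 / C / Export : the cusp package `cusp p : T.Cusp p`, and the order of `c0`
-/

set_option autoImplicit false

open AlgebraicCurve ModularCurve

namespace Fermat.Agent.S15.C

open Fermat.Agent.ES Fermat.Agent.SS

noncomputable section

variable (p : ℕ) [Fact p.Prime] [NeZero p]

/-- TASK S15/C-X.  `wP_hU_mul_hU`, `map_pow`, `map_natCast`. -/
theorem w_h : wP p (hU p) * hU p = (p : FF p) ^ 12 := by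
  rw [wP_hU_mul_hU, map_pow, map_natCast]

/-- **The cusp package.** -/
def cusp : T.Cusp p where
  H := Crux.GM.hH p
  H_order := by rw [(Crux.GM.haupt_order_hH p).1]; ring
  H_lead := hH_coeff_lead p
  H_next := hH_coeff_next p (Fact.out : p.Prime).two_le
  h := hU p
  h_coe := rfl
  pInf := pInf p
  pZero := pZero p
  pInf_ord := fun _ hf => ord_pInf p hf
  pZero_ord_h := ord_pZero_hU p
  ord_h := ord_hU p
  w := wP p
  w_h := w_h p
  gal_pInf := gal_smul_pInf p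
  gal_pZero := gal_smul_pZero p
  TD_pInf := fun l _ hl hne => TD_pInf p l hl hne
  TD_pZero := fun l _ hl hne => TD_pZero p l hl hne

theorem T_c0_eq : T.c0 (cusp p) = c0 p := rfl

theorem T_c0_ne_zero (hp' : p ∉ ({2, 3, 5, 7, 13} : Finset ℕ)) : T.c0 (cusp p) ≠ 0 :=
  c0_ne_zero p hp'

theorem T_dvd_of_zsmul_c0 (e s : ℕ) (he : e.Prime) (hs : e ^ s ∣ p - 1) (h24 : ¬ e ^ s ∣ 24) (m : ℤ)
    (hm : m • T.c0 (cusp p) = 0) : (e : ℤ) ∣ m :=
  dvd_of_zsmul_c0 p e s he hs h24 m hm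

theorem T_sub_one_zsmul_c0 : ((p : ℤ) - 1) • T.c0 (cusp p) = 0 := sub_one_zsmul_c0 p

end

end Fermat.Agent.S15.C
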