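import Fermat.Agent.S28.Transfer
import Fermat.Agent.Crux.GM.Haupt

/-!
# S15 / C / Integral : `h = Δ(q)/Δ(q^p)` is integral over `ℤ[j(q^p)]`, `p^12/h` is integral over `ℤ[j(q)]`
-/

set_option autoImplicit false

open ModularCurve HahnSeries Polynomial

namespace Fermat.Agent.S15.C

open Fermat.Agent.S28 Fermat.Agent.S28.Build Fermat.Agent.S28.Transfer
open Fermat.Agent.Crux.GM (hH)

theorem exists_monic_uInf_over_J (p : ℕ) [Fact p.Prime] [NeZero p] :
    ∃ P : Polynomial (Polynomial ℤ), P.Monic ∧ (P.map (evAt (J ℤ))).eval (uInf ℤ p) = 0 := by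
  obtain ⟨D⟩ := exists_modEqData_adjoin p
  refine exists_monic_descent p _ _ D.Ψ D.hΨmonic ?_
  rw [coeffMap_J, coeffMap_uInf]
  exact D.hΨ

theorem exists_monic_hH_over_VJ (p : ℕ) [Fact p.Prime] [NeZero p] :
    ∃ P : Polynomial (Polynomial ℤ), P.Monic ∧ (P.map (evAt (V ℤ p (J ℤ)))).eval (hH p) = 0 := by
  set z : ℂ := Complex.exp (2 * Real.pi * Complex.I / p) with hz
  have hprim : IsPrimitiveRoot z p := Complex.isPrimitiveRoot_exp p (NeZero.ne p)
  let zA : Oz p := ⟨z, Algebra.subset_adjoin (Set.mem_singleton z)⟩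
  have hpow : zA ^ p = 1 := Subtype.ext (by simpa using hprim.pow_eq_one)
  have hu : IsUnit zA := IsUnit.of_pow_eq_one hpow (NeZero.ne p)
  set ι : Oz p →+* ℂ := (Algebra.adjoin ℤ {z}).val.toRingHom with hι
  have hιinj : Function.Injective ι := Subtype.val_injective
  set ζ : (Oz p)ˣ := hu.unit with hζdef
  have hζ : IsPrimitiveRoot (Units.map (ι : Oz p →* ℂ) ζ) p := by
    rw [← IsPrimitiveRoot.coe_units_iff]
    exact hprim
  obtain ⟨h1, -, -⟩ := coeffs_mem p _ (Fact.out : p.Prime) hζ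
  have key : PsiL (Oz p) p ζ ∈ Polynomial.lifts (evAt (V (Oz p) p (J (Oz p)))) := by
    rw [Polynomial.lifts_iff_coeff_lifts]
    intro n
    refine mem_range_evAt_of_coeffMap ι hιinj p _ ?_
    rw [← Polynomial.coeff_map, map_PsiL ι p ζ]
    exact h1 n
  obtain ⟨Ψ, hΨ, -, hΨm⟩ := Polynomial.lifts_and_natDegree_eq_and_monic key (PsiL_monic (Oz p) p ζ)
  refine exists_monic_descent p _ _ Ψ hΨm ?_
  rw [coeffMap_V, coeffMap_J, hΨ, PsiL, Polynomial.eval_prod]
  have hp0 : 0 < p := Nat.pos_of_ne_zero (NeZero.ne p)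
  refine Finset.prod_eq_zero (Finset.mem_univ (some ⟨0, hp0⟩)) ?_
  have : uF (Oz p) p ζ (some ⟨0, hp0⟩) = coeffMap (Int.castRingHom (Oz p)) (hH p) := by
    rw [hH, map_mul, coeffMap_deltaC, coeffMap_V, coeffMap_deltaInvC, uF, dF]
    simp
  rw [this]
  simp

end Fermat.Agent.S15.C
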