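import Fermat.Agent.S15.C.Places
import Fermat.Agent.S15.C.Integral
import Fermat.Agent.S15.A.Place
import Fermat.Agent.S37.HeckeInputs

/-!
# S15 / C / Unit : the modular unit `h = Δ(q)/Δ(q^p)` and the cuspidal class `c0 = [(0) - (∞)]`   (C3, C4)

`hU p = A.Pl.hQ p`, `uU p = A.Pl.uQ p = p¹²/h`.   `div h = (p - 1) ((0) - (∞))`.
-/

set_option autoImplicit false

open AlgebraicCurve ModularCurve

namespace Fermat.Agent.S15.C

open Fermat.Agent.ES Fermat.Agent.SS

noncomputable section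

variable (p : ℕ) [Fact p.Prime] [NeZero p]

/-- `h = Δ(q)/Δ(q^p)`. -/
abbrev hU : FF p := A.Pl.hQ p

/-- `u = p¹²/h`. -/
abbrev uU : FF p := A.Pl.uQ p

theorem coe_hU : ((hU p : FF p) : LaurentSeries Qb) = Crux.GM.castS Qb (Crux.GM.hH p) := rfl

theorem hU_ne_zero : hU p ≠ 0 := A.Pl.hQ_ne_zero p

theorem uU_ne_zero : uU p ≠ 0 := A.Pl.uQ_ne_zero p

theorem uU_mul_hU : uU p * hU p = algebraMap Qb (FF p) ((p : Qb) ^ 12) := A.Pl.uQ_mul_hQ p

theorem wP_hU : wP p (hU p) = uU p := A.Pl.fr_hQ p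

theorem wP_uU : wP p (uU p) = hU p := A.Pl.fr_uQ p

theorem wP_hU_mul_hU : wP p (hU p) * hU p = algebraMap Qb (FF p) ((p : Qb) ^ 12) := by
  rw [wP_hU, uU_mul_hU]

/-- TASK S15/C-U1.  `ord_pInf`, `coe_hU`, `Crux.GM.haupt_order_hH p : (hH p).order = 1 - p ∧ leadingCoeff = 1`; the cast `ℤ → Qb` is injective, so
`castS` preserves the order (`S17.Base.order_coeffMap`-type lemma / `HahnSeries.order` via coefficients, cf. `Crux.GM.haupt_order_of_coeff`). -/
theorem ord_pInf_hU : (pInf p).ord (hU p) = 1 - (p : ℤ) := by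
  rw [ord_pInf p (hU_ne_zero p), coe_hU,
    Crux.GM.order_castS _ (Crux.GM.haupt_order_hH p).2, (Crux.GM.haupt_order_hH p).1]
  ring

/-- TASK S15/C-U1.  A nonzero constant has order `0` at every place (`Place.ord_algebraMap`-type lemma of the Prelude / `S24.FF`). -/
theorem ord_uU (P : Place Qb (FF p)) : P.ord (uU p) = - P.ord (hU p) := by
  have h1 := congrArg P.ord (uU_mul_hU p)
  rw [P.ord_mul (uU_ne_zero p) (hU_ne_zero p), S24.FF.ord_algebraMap] at h1
  omega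

/-- TASK S15/C-U1.  `ord_pZero'`, `wP_hU`, `ord_uU`, `ord_pInf_hU`. -/
theorem ord_pZero_hU : (pZero p).ord (hU p) = (p : ℤ) - 1 := by
  rw [ord_pZero', wP_hU, ord_uU, ord_pInf_hU]
  ring

/-- (C-U2 helper) transport of a monic equation from `LaurentSeries ℤ` to `FF N`. -/
theorem CU2_transport {N : ℕ} (y f : FF N) (yZ fZ : LaurentSeries ℤ)
    (hy : (y : LaurentSeries Qb) = Crux.GM.castS Qb yZ)
    (hf : (f : LaurentSeries Qb) = Crux.GM.castS Qb fZ)
    (P : Polynomial (Polynomial ℤ)) (hP : P.Monic)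
    (h0 : (P.map (S28.evAt yZ)).eval fZ = 0) : IsIntegral (Algebra.adjoin Qb {y}) f := by
  let φ : Polynomial ℤ →+* Algebra.adjoin Qb {y} :=
    Polynomial.eval₂RingHom (Int.castRingHom _) ⟨y, Algebra.subset_adjoin (Set.mem_singleton y)⟩
  refine ⟨P.map φ, hP.map φ, ?_⟩
  rw [Polynomial.eval₂_map]
  let ι : FF N →+* LaurentSeries Qb := (modularFunctionFieldBar N).val.toRingHom
  have hι : Function.Injective ι := Subtype.val_injective
  apply hι
  rw [map_zero, Polynomial.hom_eval₂]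
  have hcomp : ι.comp ((algebraMap (Algebra.adjoin Qb {y}) (FF N)).comp φ)
      = (coeffMap (Int.castRingHom Qb)).comp (S28.evAt yZ) := by
    apply Polynomial.ringHom_ext
    · intro n
      simp only [eq_intCast, map_intCast]
    · have h1 : φ Polynomial.X = ⟨y, Algebra.subset_adjoin (Set.mem_singleton y)⟩ :=
        Polynomial.eval₂_X _ _
      rw [RingHom.comp_apply, RingHom.comp_apply, RingHom.comp_apply, h1, S28.Build.evAt_X]
      exact hy
  have hf' : ι f = coeffMap (Int.castRingHom Qb) fZ := hf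
  rw [hcomp, hf', ← Polynomial.hom_eval₂, ← Polynomial.eval_map, h0, map_zero]

/-- (C-U2 helper) `j(q^d)` as a series. -/
theorem CU2_jSer_eq (d : ℕ) [NeZero d] : S24.jSer d = qExpand Qb d (jqModC Qb) := by
  rw [S24.jSer, coeffEmb, coeffMap_qExpand]
  congr 1
  exact coeffMap_jqModC (algebraMap ℚ Qb)

/-- TASK S15/C-U2.  From `exists_monic_hH_over_VJ p` (file `Integral.lean`): `P : ℤ[X][X]` monic, `(P.map (evAt (V ℤ p (J ℤ)))).eval (hH p) = 0` in
`LaurentSeries ℤ`.  Take `Q := P.map (φ)` with `φ : ℤ[X] →+* Algebra.adjoin Qb {jp p}`, `X ↦ ⟨jp p, subset_adjoin⟩` (`Polynomial.eval₂RingHom (Int.castRingHom _) _`).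
`Q` is monic; `eval₂ (algebraMap _ (FF p)) (hU p) Q = 0` is checked after the injection `FF p → LaurentSeries Qb`, where it is the image of the
identity over `ℤ` under the ring hom `castS Qb = coeffMap (Int.castRingHom Qb)`; `castS Qb (V ℤ p (J ℤ)) = S24.jSer p` :
`S28.Build.coeffMap_V`, `S28.Build.coeffMap_J`, `Crux.jSer_eq` (`Crux/Descent.lean`). -/
theorem isIntegral_hU : IsIntegral (Algebra.adjoin Qb {jp p}) (hU p) := by
  obtain ⟨P, hP, h0⟩ := exists_monic_hH_over_VJ p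
  refine CU2_transport (jp p) (hU p) _ _ ?_ (coe_hU p) P hP h0
  show S24.jSer p = _
  rw [CU2_jSer_eq, Crux.GM.CoordJ.castS_VJ]

/-- TASK S15/C-U2.  Same with `exists_monic_uInf_over_J p` and `A.Pl.coe_uQ p : (uQ p : LaurentSeries Qb) = S28.uInf Qb p`
(`S28.Build.coeffMap_uInf`). -/
theorem isIntegral_uU : IsIntegral (Algebra.adjoin Qb {jj p}) (uU p) := by
  obtain ⟨P, hP, h0⟩ := exists_monic_uInf_over_J p
  refine CU2_transport (jj p) (uU p) _ _ ?_ ?_ P hP h0
  · show S24.jSer 1 = _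
    rw [CU2_jSer_eq, qExpand_one_apply, Crux.GM.castS, S28.Build.coeffMap_J]
  · rw [A.Pl.coe_uQ, Crux.GM.castS, S28.Build.coeffMap_uInf]

/-- TASK S15/C-U3.  `0 ≤ P.ord (jp p)` (otherwise `eq_of_ord_jp_neg` makes `P` a cusp, where `ord j < 0`: `ord_pInf_jj`, `ord_pZero_jj`).
`S24.FF.ord_nonneg_of_isIntegral` (`S24/FF/PlacePrime.lean`; `Ry K y = Algebra.adjoin K {y}`) with `isIntegral_hU`, `isIntegral_uU` gives
`0 ≤ P.ord h` and `0 ≤ P.ord u = - P.ord h` (`ord_uU`). -/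
theorem ord_hU_of_finite (P : Place Qb (FF p)) (hP : 0 ≤ P.ord (jj p)) : P.ord (hU p) = 0 := by
  have hjp : 0 ≤ P.ord (jp p) := by
    by_contra hneg
    rw [not_le] at hneg
    rcases eq_of_ord_jp_neg p P hneg with rfl | rfl
    · rw [ord_pInf_jj] at hP
      omega
    · rw [ord_pZero_jj] at hP
      have := (Fact.out : p.Prime).pos
      omega
  have h1 : 0 ≤ P.ord (hU p) := S24.FF.ord_nonneg_of_isIntegral Qb (jp p) P hjp (isIntegral_hU p)
  have h2 : 0 ≤ P.ord (uU p) := S24.FF.ord_nonneg_of_isIntegral Qb (jj p) P hP (isIntegral_uU p)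
  rw [ord_uU] at h2
  omega

/-- TASK S15/C-U3.  `eq_of_ord_jj_neg`, `ord_hU_of_finite`. -/
theorem ord_hU (P : Place Qb (FF p)) (h1 : P ≠ pInf p) (h2 : P ≠ pZero p) : P.ord (hU p) = 0 := by
  refine ord_hU_of_finite p P ?_
  by_contra hneg
  rw [not_le] at hneg
  rcases eq_of_ord_jj_neg p P hneg with h | h
  · exact h1 h
  · exact h2 h

/-- the divisor `(0) - (∞)`. -/
def cuspD : Divisor Qb (FF p) := Finsupp.single (pZero p) 1 - Finsupp.single (pInf p) 1

/-- TASK S15/C-U3.  `ord_pInf_hU`, `ord_pZero_hU`, `ord_hU`, `pInf_ne_pZero`. -/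
theorem ord_hU_eq (P : Place Qb (FF p)) : P.ord (hU p) = ((p : ℤ) - 1) * cuspD p P := by
  have hne := pInf_ne_pZero p
  unfold cuspD
  rw [Finsupp.sub_apply]
  by_cases h1 : P = pInf p
  · subst h1
    rw [ord_pInf_hU, Finsupp.single_eq_same, Finsupp.single_eq_of_ne hne]
    ring
  · by_cases h2 : P = pZero p
    · subst h2
      rw [ord_pZero_hU, Finsupp.single_eq_same, Finsupp.single_eq_of_ne hne.symm]
      ring
    · rw [ord_hU p P h1 h2, Finsupp.single_eq_of_ne h2, Finsupp.single_eq_of_ne h1]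
      ring

/-- TASK S15/C-U4.  `Divisor.mem_degZero`, `map_sub`, `Divisor.degree_single`-type lemma, `deg_place`. -/
theorem cuspD_mem : cuspD p ∈ Divisor.degZero (K := Qb) (F := FF p) := by
  rw [Divisor.mem_degZero, cuspD, map_sub, Divisor.degree_single, Divisor.degree_single,
    deg_place, deg_place, sub_self]

/-- the cuspidal class `c0 = [(0) - (∞)]`. -/
def c0 : JZero p := Pic0.mk ⟨cuspD p, cuspD_mem p⟩

/-- TASK S15/C-U4.  `Pic0.mk D = 0 ↔ D` principal (`QuotientAddGroup.eq_zero_iff`, `AddSubgroup.mem_addSubgroupOf`; see `S37/DivA.lean`,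
`exists_eq_nsmul_add_div`, for the unfolding of `Divisor.principal`: `∃ g ≠ 0, ∀ P, D P = P.ord g`). -/
theorem zsmul_c0_eq_zero_iff (m : ℤ) :
    m • c0 p = 0 ↔ ∃ g : FF p, g ≠ 0 ∧ ∀ P : Place Qb (FF p), P.ord g = m * cuspD p P := by
  have h1 : m • c0 p = Pic0.mk (m • ⟨cuspD p, cuspD_mem p⟩) := rfl
  rw [h1]
  unfold Pic0.mk
  rw [QuotientAddGroup.eq_zero_iff, AddSubgroup.mem_addSubgroupOf]
  have h2 : ∀ P : Place Qb (FF p),
      (((m • (⟨cuspD p, cuspD_mem p⟩ : Divisor.degZero (K := Qb) (F := FF p)) :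
        Divisor.degZero (K := Qb) (F := FF p)) : Divisor Qb (FF p))) P = m * cuspD p P := by
    intro P
    rw [AddSubgroup.coe_zsmul, Finsupp.smul_apply, smul_eq_mul]
  constructor
  · rintro ⟨g, hg, h⟩
    exact ⟨g, hg, fun P => by rw [← h P, h2]⟩
  · rintro ⟨g, hg, h⟩
    exact ⟨g, hg, fun P => by rw [h P, h2]⟩

/-- TASK S15/C-U4.  `zsmul_c0_eq_zero_iff`, `ord_hU_eq`. -/
theorem sub_one_zsmul_c0 : ((p : ℤ) - 1) • c0 p = 0 :=
  (zsmul_c0_eq_zero_iff p _).2 ⟨hU p, hU_ne_zero p, ord_hU_eq p⟩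

end

end Fermat.Agent.S15.C
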