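import Fermat.Agent.S17.Curve.Base
import Fermat.Agent.SS.Formal.AL
import Fermat.Agent.S24.Packages
import Fermat.Agent.S24.FF.SumFormula
import Fermat.Agent.S24.FF.DegOne
import Fermat.Agent.Crux.GM.Fricke
import Fermat.Agent.Gamma0Comb.Index

/-!
# S15 / C / Places : the two cusps `∞`, `0` of `X₀(p)` as places of `FF p`   (C1)

`p` prime.  `F = FF p = ℚ̄(j, j_p) ⊆ ℚ̄((q))`, `j = S24.jF p 1`, `j_p = S24.jF p p`.

* `wP p = Crux.GM.Fricke.fr p : FF p ≃ₐ[ℚ̄] FF p` the Fricke involution, `w j = j_p`, `w j_p = j`;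
* `pInf p = S17.infP ℚ̄ p` (`ord = q`-order), `pZero p = wP p • pInf p` (`ord f = q`-order of `w f`);
* both are fixed by the arithmetic Galois action; they are the only poles of `j` (and of `j_p`).
-/

set_option autoImplicit false

open AlgebraicCurve ModularCurve

namespace Fermat.Agent.S15.C

open Fermat.Agent.ES Fermat.Agent.SS

noncomputable section

variable (p : ℕ) [Fact p.Prime] [NeZero p]

/-- `j`. -/
abbrev jj : FF p := S24.jF p 1 (one_dvd p)

/-- `j(q^p)`. -/
abbrev jp : FF p := S24.jF p p dvd_rfl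

/-- the Fricke involution of `FF p`. -/
def wP : FF p ≃ₐ[Qb] FF p := Crux.GM.Fricke.fr p

theorem wP_jj : wP p (jj p) = jp p := Crux.GM.Fricke.fr_jN p

theorem wP_jp : wP p (jp p) = jj p := Crux.GM.Fricke.fr_jM p

/-- TASK S15/C-W.  `(wP p).toAlgHom.comp (wP p).toAlgHom = AlgHom.id` by `S24.algHom_ext_FN` (two `Kb`-algebra homs of `FN M` which agree on all
`jF M d _`, `d ∣ M`, are equal; see its use in `Crux/GM/Fricke.lean`, `exists_fricke`, `hww`); the divisors of `p` are `1` and `p`
(`(Nat.dvd_prime Fact.out).mp`, then `subst`/`Crux.GM.Fricke.jF_congr`); `wP_jj`, `wP_jp`. -/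
theorem wP_wP (f : FF p) : wP p (wP p f) = f := by
  have h : ((wP p : FF p ≃ₐ[Qb] FF p) : FF p →ₐ[Qb] FF p).comp
      ((wP p : FF p ≃ₐ[Qb] FF p) : FF p →ₐ[Qb] FF p) = AlgHom.id Qb (FF p) := by
    apply S24.algHom_ext_FN
    intro d
    rw [AlgHom.comp_apply, AlgHom.id_apply]
    rcases (Nat.dvd_prime Fact.out).mp d.2 with h1 | h1
    · have e : S24.jF p d.1 d.2 = jj p := Crux.GM.Fricke.jF_congr p h1 _ _
      rw [e]
      show wP p (wP p (jj p)) = jj p
      rw [wP_jj, wP_jp]
    · have e : S24.jF p d.1 d.2 = jp p := Crux.GM.Fricke.jF_congr p h1 _ _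
      rw [e]
      show wP p (wP p (jp p)) = jp p
      rw [wP_jp, wP_jj]
  exact AlgHom.congr_fun h f

/-- the cusp `∞`. -/
def pInf : Place Qb (FF p) := S17.infP Qb p

/-- the cusp `0`. -/
def pZero : Place Qb (FF p) := wP p • pInf p

theorem ord_pInf {f : FF p} (hf : f ≠ 0) : (pInf p).ord f = (f : LaurentSeries Qb).order :=
  S17.infP_ord hf

/-- TASK S15/C-P1.  `Place.ord_smul (σ) v f : (σ • v).ord (σ f) = v.ord f` with `f := wP p f`, `wP_wP`. -/
theorem ord_pZero' (f : FF p) : (pZero p).ord f = (pInf p).ord (wP p f) := by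
  have h := Place.ord_smul (wP p) (pInf p) (wP p f)
  rwa [wP_wP] at h

/-- TASK S15/C-P1. -/
theorem ord_pZero {f : FF p} (hf : f ≠ 0) :
    (pZero p).ord f = ((wP p f : FF p) : LaurentSeries Qb).order := by
  rw [ord_pZero', ord_pInf p ((map_ne_zero_iff _ (wP p).injective).2 hf)]

/-- TASK S15/C-P1.  (`mul_smul`, `wP_wP`: `wP p * wP p = 1` in `FF p ≃ₐ[Qb] FF p`.) -/
theorem wP_smul_pZero : wP p • pZero p = pInf p := by
  have h : wP p * wP p = 1 := AlgEquiv.ext fun f => wP_wP p f
  rw [pZero, ← mul_smul, h, one_smul]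

theorem CP1_order_jSer (d : ℕ) [NeZero d] : (S24.jSer d).order = -(d : ℤ) := by
  have h : S24.jSer d = qExpand Qb d (jqModC Qb) := by
    rw [S24.jSer, coeffEmb, coeffMap_qExpand]
    congr 1
    exact coeffMap_jqModC (algebraMap ℚ Qb)
  rw [h]
  exact S28.order_V_J d

theorem CP1_jF_ne_zero (d : ℕ) [NeZero d] (hd : d ∣ p) : S24.jF p d hd ≠ 0 := by
  intro h
  have h1 : (S24.jSer d).order = 0 := by
    have h2 : S24.jSer d = 0 := congrArg (fun x : FF p => (x : LaurentSeries Qb)) h
    rw [h2, HahnSeries.order_zero]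
  rw [CP1_order_jSer] at h1
  have := NeZero.ne d
  omega

theorem CP1_ord_pInf_jF (d : ℕ) [NeZero d] (hd : d ∣ p) :
    (pInf p).ord (S24.jF p d hd) = -(d : ℤ) := by
  rw [ord_pInf p (CP1_jF_ne_zero p d hd)]
  exact CP1_order_jSer d

/-- TASK S15/C-P1.  `order (jSer d) = -d` : `S17.Base.order_coeffEmb_jq`, `qExpand` multiplies orders by `d`
(`Crux.GM.haupt_order_V`-type lemma, or coefficients: `qExpand_coeff_mul`, `qExpand_coeff_of_not_dvd`; `Crux.jSer_eq`). -/
theorem ord_pInf_jj : (pInf p).ord (jj p) = -1 := by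
  have := CP1_ord_pInf_jF p 1 (one_dvd p)
  simpa using this

/-- TASK S15/C-P1. -/
theorem ord_pInf_jp : (pInf p).ord (jp p) = -(p : ℤ) :=
  CP1_ord_pInf_jF p p dvd_rfl

/-- TASK S15/C-P1. -/
theorem ord_pZero_jj : (pZero p).ord (jj p) = -(p : ℤ) := by
  rw [ord_pZero', wP_jj, ord_pInf_jp]

/-- TASK S15/C-P1. -/
theorem ord_pZero_jp : (pZero p).ord (jp p) = -1 := by
  rw [ord_pZero', wP_jp, ord_pInf_jj]

/-- TASK S15/C-P1. (`ord_pInf_jj`, `ord_pZero_jj`, `p ≠ 1`.) -/
theorem pInf_ne_pZero : pInf p ≠ pZero p := by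
  intro h
  have h1 := ord_pInf_jj p
  rw [h, ord_pZero_jj] at h1
  have := (Fact.out : p.Prime).one_lt
  omega

/-- TASK S15/C-P2.  `S24.FF.sum_ord_zeroPlaces` for `y = j⁻¹` (`S24.FF.transcendental_inv`, `FF.finrank_congr`/`adjoin_simple_inv` as in
`ES/An/DictCusp.lean`), `S24.finrank_FN p : finrank = Nat.card (XN p)`, `Gamma0Comb.index_Gamma0 p : Nat.card (XN p) = dedekindPsi p` and
`dedekindPsi p = p + 1` (see `ES/B/H1/Degree.lean`, `finrankAlong_heckeAlpha`, for these lemmas in use).  `pInf`, `pZero` are two different zeros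
of `j⁻¹` with orders `1` and `p`; all terms of the sum are positive; so there is no third one. -/
theorem eq_of_ord_jj_neg (P : Place Qb (FF p)) (hP : P.ord (jj p) < 0) : P = pInf p ∨ P = pZero p := by
  classical
  have hp : p.Prime := Fact.out
  have htr : Transcendental Qb (jj p) := S24.transcendental_jN p
  have hfd : FiniteDimensional (IntermediateField.adjoin Qb {jj p}) (FF p) :=
    S24.finiteDimensional_FN p
  have hfd' : FiniteDimensional (IntermediateField.adjoin Qb {(jj p)⁻¹}) (FF p) :=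
    S24.FF.finiteDimensional_congr Qb (S24.FF.adjoin_simple_inv Qb (jj p)).symm
  have hsum := S24.FF.sum_ord_zeroPlaces Qb _ (S24.FF.transcendental_inv Qb htr)
  rw [S24.FF.finrank_congr Qb (S24.FF.adjoin_simple_inv Qb (jj p))] at hsum
  have hdeg : Module.finrank (IntermediateField.adjoin Qb {jj p}) (FF p) = p + 1 := by
    have h1 : Module.finrank (IntermediateField.adjoin Qb {jj p}) (FF p) = Nat.card (S24.XN p) :=
      S24.finrank_FN p
    have h2 : Nat.card (S24.XN p) = dedekindPsi p := by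
      rw [← Gamma0Comb.index_Gamma0 p]
      rfl
    have h3 := Gamma0Comb.dedekindPsi_mul_of_not_dvd (p := p) (N := 1) one_ne_zero hp
      (fun h => hp.one_lt.ne' (Nat.dvd_one.1 h))
    rw [mul_one, dedekindPsi_one, mul_one] at h3
    rw [h1, h2, h3]
  rw [hdeg] at hsum
  by_contra hcon
  push Not at hcon
  have hmem : ∀ v : Place Qb (FF p),
      v ∈ (S24.FF.zeroPlaces_finite Qb _ (S24.FF.transcendental_inv Qb htr)).toFinset ↔
        0 < v.ord (jj p)⁻¹ := by
    intro v
    rw [Set.Finite.mem_toFinset, S24.FF.mem_zeroPlaces]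
  have e1 : (pInf p).ord (jj p)⁻¹ = 1 := by rw [Place.ord_inv, ord_pInf_jj, neg_neg]
  have e2 : (pZero p).ord (jj p)⁻¹ = p := by rw [Place.ord_inv, ord_pZero_jj, neg_neg]
  have e3 : 0 < P.ord (jj p)⁻¹ := by rw [Place.ord_inv]; omega
  have hppos : (0 : ℤ) < p := by exact_mod_cast hp.pos
  have hsub : ({pInf p, pZero p, P} : Finset (Place Qb (FF p))) ⊆
      (S24.FF.zeroPlaces_finite Qb _ (S24.FF.transcendental_inv Qb htr)).toFinset := by
    intro v hv
    rw [hmem]
    simp only [Finset.mem_insert, Finset.mem_singleton] at hv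
    rcases hv with rfl | rfl | rfl
    · rw [e1]; exact one_pos
    · rw [e2]; exact hppos
    · exact e3
  have hle := Finset.sum_le_sum_of_subset_of_nonneg (f := fun v => v.ord (jj p)⁻¹) hsub
    (fun v hv _ => le_of_lt ((hmem v).1 hv))
  rw [hsum, Finset.sum_insert, Finset.sum_insert, Finset.sum_singleton, e1, e2] at hle
  · push_cast at hle
    omega
  · rw [Finset.mem_singleton]
    exact fun h => hcon.2 h.symm
  · simp only [Finset.mem_insert, Finset.mem_singleton, not_or]
    exact ⟨pInf_ne_pZero p, fun h => hcon.1 h.symm⟩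

/-- TASK S15/C-P1.  Apply `eq_of_ord_jj_neg` to `wP p • P` (`Place.ord_smul`, `wP_jp`), then `wP_smul_pZero`, `pZero`. -/
theorem eq_of_ord_jp_neg (P : Place Qb (FF p)) (hP : P.ord (jp p) < 0) : P = pInf p ∨ P = pZero p := by
  have h1 : (wP p • P).ord (jj p) < 0 := by
    have h := Place.ord_smul (wP p) P (jp p)
    rw [wP_jp] at h
    rw [h]
    exact hP
  have hww : wP p • (wP p • P) = P := by
    have h : wP p * wP p = 1 := AlgEquiv.ext fun f => wP_wP p f
    rw [← mul_smul, h, one_smul]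
  rcases eq_of_ord_jj_neg p (wP p • P) h1 with h | h
  · right
    rw [← hww, h, pZero]
  · left
    rw [← hww, h, wP_smul_pZero]

theorem gal_smul_pInf (σ : GQ) :
    arithmeticGalois (modularFunctionFieldFull p) σ • pInf p = pInf p :=
  S17.gal_smul_infP σ

omit [Fact p.Prime] [NeZero p] in
theorem CP3_jF_congr {a b : ℕ} [NeZero a] [NeZero b] (h : a = b) (ha : a ∣ p) (hb : b ∣ p) :
    S24.jF p a ha = S24.jF p b hb := by
  subst h; rfl

omit [Fact p.Prime] [NeZero p] in
/-- the generators have rational coefficients. -/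
theorem CP3_galF_jF (σ : GQ) (d : ℕ) [NeZero d] (hd : d ∣ p) :
    galF p σ (S24.jF p d hd) = S24.jF p d hd := by
  apply Subtype.ext
  rw [coe_galF]
  exact coeffMap_coeffEmb σ _

/-- TASK S15/C-P3.  `w` commutes with the Galois action.  Induction on `f` with `SS.induction_FN` (`SS/Formal/AL.lean`; compare the proof of
`SS.IsAL.galF_comm` there): constants, the generators `jF p d _` (`d = 1` or `p`; their coefficients are rational, so Galois fixes them:
`coeffMap σ (coeffEmb Qb x) = coeffEmb Qb x`), sums, products, inverses. -/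
theorem gal_wP (σ : GQ) (f : FF p) :
    arithmeticGalois (modularFunctionFieldFull p) σ • (wP p f) =
      wP p (arithmeticGalois (modularFunctionFieldFull p) σ • f) := by
  show galF p σ (wP p f) = wP p (galF p σ f)
  refine induction_FN p (fun f => galF p σ (wP p f) = wP p (galF p σ f)) ?_ ?_ ?_ ?_ ?_ f
  · intro c
    rw [AlgEquiv.commutes, galF_algebraMap', AlgEquiv.commutes]
  · intro d
    rcases (Nat.dvd_prime (Fact.out : p.Prime)).mp d.2 with h1 | h1
    · have e : S24.jF p d.1 d.2 = jj p := CP3_jF_congr p h1 _ _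
      rw [e, CP3_galF_jF, wP_jj, CP3_galF_jF]
    · have e : S24.jF p d.1 d.2 = jp p := CP3_jF_congr p h1 _ _
      rw [e, CP3_galF_jF, wP_jp, CP3_galF_jF]
  · intro x y hx hy
    rw [map_add, map_add, map_add, map_add, hx, hy]
  · intro x y hx hy
    rw [map_mul, map_mul, map_mul, map_mul, hx, hy]
  · intro x hx
    rw [map_inv₀, map_inv₀, map_inv₀, map_inv₀, hx]

/-- TASK S15/C-P3.  As `S17.gal_smul_infP`: `S24.FF.eq_of_forall_ord_nonneg`, `SemilinearAut.ord_smul`, `ord_pZero`, `gal_wP`, `S17.Base.order_coeffMap`. -/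
theorem gal_smul_pZero (σ : GQ) :
    arithmeticGalois (modularFunctionFieldFull p) σ • pZero p = pZero p := by
  have key : ∀ (τ : GQ) (f : FF p), (pZero p).ord (galF p τ f) = (pZero p).ord f := by
    intro τ f
    have h0 : galF p τ (wP p f) = wP p (galF p τ f) := gal_wP p τ f
    rw [ord_pZero', ord_pZero', ← h0]
    have h := ord_galF p τ (pInf p) (wP p f)
    rw [gal_smul_pInf] at h
    exact h
  refine Fermat.Agent.S24.FF.eq_of_forall_ord_nonneg fun f hf => ?_
  have e : f = galF p σ (galF p σ⁻¹ f) := by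
    rw [← galF_mul, mul_inv_cancel, galF_one]
    rfl
  rw [e, ord_galF, key] at hf
  exact hf

/-- TASK S15/C-P1. residue degree one (`Qb` algebraically closed): `S24.FF.deg_eq_one` (`S24/FF/DegOne.lean`). -/
theorem deg_place (P : Place Qb (FF p)) : P.deg = 1 := by
  have := S24.finiteDimensional_FN p
  exact S24.FF.deg_eq_one Qb (S24.jN p) (S24.transcendental_jN p) P

end

end Fermat.Agent.S15.C
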